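/-
Kummer project, module D (Case I of FLT for p = 5, 7, 11, 13) -- purely elementary, over the integers.

MATHS (Sophie Germain / Legendre).  Let `p` be an odd prime and `q` an auxiliary prime such that
 (i)  `x^p + y^p + z^p ≡ 0 [mod q]` implies `q ∣ x*y*z`,
 (ii) `p` is not a `p`-th power mod `q`.
Then `x^p + y^p + z^p = 0`, `x,y,z` pairwise coprime, implies `p ∣ x*y*z`.
Proof: if `p ∤ xyz`, then `y+z` and `(y^p+z^p)/(y+z)` are coprime (gcd divides `p`), product is `(-x)^p`,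
so `y+z = a^p`, `(y^p+z^p)/(y+z) = α^p`; same for `z+x = b^p`, `x+y = c^p`.  By (i) WLOG `q ∣ x`.
`2x = b^p + c^p - a^p ≡ 0`, so by (i) `q ∣ abc`; `q ∣ b` or `q ∣ c` contradict coprimality, so `q ∣ a`, `y ≡ -z`,
`α^p ≡ p y^(p-1)`, and `y ≡ c^p`, hence `p` is a `p`-th power mod `q`: contradiction with (ii).
Auxiliary primes: p=5: q=11;  p=7: q=29;  p=11: q=23;  p=13: q=53.  (i),(ii) are finite checks in `ZMod q`
(`decide` on the set of p-th powers, which has 3 resp. 5 elements including 0).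
-/
import Mathlib

set_option autoImplicit false

namespace Fermat.Agent.Kummer

open Finset

/-- the cofactor `(y^p + z^p)/(y+z)` -/
def c1S (p : ℕ) (y z : ℤ) : ℤ := ∑ i ∈ range p, y ^ i * (-z) ^ (p - 1 - i)

lemma c1S_mul {p : ℕ} (hodd : Odd p) (y z : ℤ) : (y + z) * c1S p y z = y ^ p + z ^ p := by
  have := geom_sum₂_mul y (-z) p
  rw [hodd.neg_pow] at this
  unfold c1S
  linarith

lemma c1S_congr (p : ℕ) (y z : ℤ) : (y + z) ∣ c1S p y z - p * y ^ (p - 1) := by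
  have h1 : (p : ℤ) * y ^ (p - 1) = ∑ i ∈ range p, y ^ i * y ^ (p - 1 - i) := by
    have : ∀ i ∈ range p, y ^ i * y ^ (p - 1 - i) = y ^ (p - 1) := by
      intro i hi
      rw [← pow_add]; congr 1; have := mem_range.mp hi; omega
    rw [Finset.sum_congr rfl this]
    simp
  unfold c1S
  rw [h1, ← Finset.sum_sub_distrib]
  apply Finset.dvd_sum
  intro i hi
  rw [← mul_sub]
  apply Dvd.dvd.mul_left
  have : (-z) - y ∣ (-z) ^ (p - 1 - i) - y ^ (p - 1 - i) := sub_dvd_pow_sub_pow _ _ _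
  have h2 : y + z ∣ -z - y := ⟨-1, by ring⟩
  exact h2.trans this

lemma c1S_coprime {p : ℕ} (hp : p.Prime) {y z : ℤ} (hyz : IsCoprime y z) (h : ¬ (p : ℤ) ∣ y + z) :
    IsCoprime (y + z) (c1S p y z) := by
  obtain ⟨k, hk⟩ := c1S_congr p y z
  have : c1S p y z = p * y ^ (p - 1) + (y + z) * k := by linarith
  rw [this]
  apply IsCoprime.add_mul_left_right
  apply IsCoprime.mul_right
  · exact ((Nat.prime_iff_prime_int.mp hp).coprime_iff_not_dvd.mpr h).symm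
  · apply IsCoprime.pow_right
    have := hyz.symm.add_mul_left_left 1
    simpa [add_comm] using this

lemma c1_pow {p : ℕ} (hp : p.Prime) (hodd : Odd p) {u v w : ℤ} (hvw : IsCoprime v w)
    (h : u ^ p + v ^ p + w ^ p = 0) (hu : ¬ (p : ℤ) ∣ u) :
    (∃ a, v + w = a ^ p) ∧ ∃ α, c1S p v w = α ^ p := by
  have hpZ := Nat.prime_iff_prime_int.mp hp
  have h1 : ¬ (p : ℤ) ∣ v + w := by
    intro hd
    have h2 : (p : ℤ) ∣ v ^ p + w ^ p := hd.trans (hodd.add_dvd_pow_add_pow v w)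
    have h3 : (p : ℤ) ∣ u ^ p := by
      have : u ^ p = -(v ^ p + w ^ p) := by linarith
      rw [this]; exact (dvd_neg).mpr h2
    exact hu (hpZ.dvd_of_dvd_pow h3)
  refine Int.eq_pow_of_mul_eq_pow_odd (c := -u) (c1S_coprime hp hvw h1) hodd ?_
  rw [c1S_mul hodd, hodd.neg_pow]; linarith

lemma c1_core {p q : ℕ} (hp : p.Prime) (hodd : Odd p) (hq' : q.Prime)
    (h1 : ∀ x y z : ZMod q, x ^ p + y ^ p + z ^ p = 0 → x = 0 ∨ y = 0 ∨ z = 0)
    (h2 : ∀ x : ZMod q, x ^ p ≠ (p : ZMod q))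
    {x y z : ℤ} (hxy : IsCoprime x y) (hyz : IsCoprime y z) (hzx : IsCoprime z x)
    (h : x ^ p + y ^ p + z ^ p = 0) (hpx : ¬ (p : ℤ) ∣ x) (hpy : ¬ (p : ℤ) ∣ y)
    (hpz : ¬ (p : ℤ) ∣ z) (hqx : (q : ℤ) ∣ x) : False := by
  have hq : Fact q.Prime := ⟨hq'⟩
  have hqZ := Nat.prime_iff_prime_int.mp hq.out
  obtain ⟨⟨a, ha⟩, ⟨α, hα⟩⟩ := c1_pow hp hodd hyz h hpx
  obtain ⟨⟨b, hb⟩, -⟩ := c1_pow hp hodd hzx (u := y) (by linarith) hpy
  obtain ⟨⟨c, hc⟩, -⟩ := c1_pow hp hodd hxy (u := z) (by linarith) hpz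
  have hx0 : (x : ZMod q) = 0 := (ZMod.intCast_zmod_eq_zero_iff_dvd x q).mpr hqx
  have hy0 : (y : ZMod q) ≠ 0 := by
    intro hy
    have hqy : (q : ℤ) ∣ y := (ZMod.intCast_zmod_eq_zero_iff_dvd y q).mp hy
    exact hqZ.not_isUnit (hxy.isUnit_of_dvd' hqx hqy)
  have hz0 : (z : ZMod q) ≠ 0 := by
    intro hz
    have hqz : (q : ℤ) ∣ z := (ZMod.intCast_zmod_eq_zero_iff_dvd z q).mp hz
    exact hqZ.not_isUnit (hzx.isUnit_of_dvd' hqz hqx)
  have ha' : (y : ZMod q) + z = (a : ZMod q) ^ p := by exact_mod_cast congrArg (Int.cast : ℤ → ZMod q) ha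
  have hb' : (z : ZMod q) + x = (b : ZMod q) ^ p := by exact_mod_cast congrArg (Int.cast : ℤ → ZMod q) hb
  have hc' : (x : ZMod q) + y = (c : ZMod q) ^ p := by exact_mod_cast congrArg (Int.cast : ℤ → ZMod q) hc
  rw [hx0] at hb' hc'
  rw [add_zero] at hb'
  rw [zero_add] at hc'
  have hp0 : p ≠ 0 := hp.ne_zero
  have hsum : (b : ZMod q) ^ p + (c : ZMod q) ^ p + (-(a : ZMod q)) ^ p = 0 := by
    rw [hodd.neg_pow, ← ha', ← hb', ← hc']; ring
  have ha0 : (a : ZMod q) = 0 := by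
    rcases h1 _ _ _ hsum with hb0 | hc0 | ha0
    · exfalso; apply hz0; rw [hb', hb0, zero_pow hp0]
    · exfalso; apply hy0; rw [hc', hc0, zero_pow hp0]
    · exact neg_eq_zero.mp ha0
  have hqyz : (q : ℤ) ∣ y + z := by
    rw [← ZMod.intCast_zmod_eq_zero_iff_dvd]
    push_cast
    rw [ha', ha0, zero_pow hp0]
  have hcong : (q : ℤ) ∣ c1S p y z - p * y ^ (p - 1) := hqyz.trans (c1S_congr p y z)
  rw [hα, ← ZMod.intCast_zmod_eq_zero_iff_dvd] at hcong
  push_cast at hcong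
  have hc0 : (c : ZMod q) ≠ 0 := by
    intro hc0; apply hy0; rw [hc', hc0, zero_pow hp0]
  apply h2 ((α : ZMod q) / (c : ZMod q) ^ (p - 1))
  rw [div_pow, div_eq_iff (pow_ne_zero _ (pow_ne_zero _ hc0)), ← pow_mul, mul_comm (p - 1) p, pow_mul,
    ← hc']
  exact sub_eq_zero.mp hcong

theorem c1_sophie {p q : ℕ} (hp : p.Prime) (hodd : Odd p) (hq' : q.Prime)
    (h1 : ∀ x y z : ZMod q, x ^ p + y ^ p + z ^ p = 0 → x = 0 ∨ y = 0 ∨ z = 0)
    (h2 : ∀ x : ZMod q, x ^ p ≠ (p : ZMod q))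
    {x y z : ℤ} (hxy : IsCoprime x y) (hyz : IsCoprime y z) (hzx : IsCoprime z x)
    (h : x ^ p + y ^ p + z ^ p = 0) (hpx : ¬ (p : ℤ) ∣ x) (hpy : ¬ (p : ℤ) ∣ y)
    (hpz : ¬ (p : ℤ) ∣ z) : False := by
  have h' : (x : ZMod q) ^ p + (y : ZMod q) ^ p + (z : ZMod q) ^ p = 0 := by
    exact_mod_cast congrArg (Int.cast : ℤ → ZMod q) h
  rcases h1 _ _ _ h' with hx | hy | hz
  · exact c1_core hp hodd hq' h1 h2 hxy hyz hzx h hpx hpy hpz
      ((ZMod.intCast_zmod_eq_zero_iff_dvd x q).mp hx)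
  · exact c1_core hp hodd hq' h1 h2 hyz hzx hxy (by linarith) hpy hpz hpx
      ((ZMod.intCast_zmod_eq_zero_iff_dvd y q).mp hy)
  · exact c1_core hp hodd hq' h1 h2 hzx hxy hyz (by linarith) hpz hpx hpy
      ((ZMod.intCast_zmod_eq_zero_iff_dvd z q).mp hz)

lemma c1_h1_of_set {p q : ℕ} (hq' : q.Prime) (hp0 : p ≠ 0) (S : Finset (ZMod q))
    (hS : ∀ x : ZMod q, x ^ p ∈ S)
    (hS3 : ∀ r ∈ S, ∀ s ∈ S, ∀ t ∈ S, r + s + t = 0 → r = 0 ∨ s = 0 ∨ t = 0) :
    ∀ x y z : ZMod q, x ^ p + y ^ p + z ^ p = 0 → x = 0 ∨ y = 0 ∨ z = 0 := by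
  have hq : Fact q.Prime := ⟨hq'⟩
  intro x y z h
  rcases hS3 _ (hS x) _ (hS y) _ (hS z) h with h | h | h
  · exact Or.inl (pow_eq_zero_iff hp0 |>.mp h)
  · exact Or.inr (Or.inl (pow_eq_zero_iff hp0 |>.mp h))
  · exact Or.inr (Or.inr (pow_eq_zero_iff hp0 |>.mp h))

set_option maxRecDepth 100000 in
theorem c1_aux {p : ℕ} (hp : p = 5 ∨ p = 7 ∨ p = 11 ∨ p = 13)
    {x y z : ℤ} (hxy : IsCoprime x y) (hyz : IsCoprime y z) (hzx : IsCoprime z x)
    (h : x ^ p + y ^ p + z ^ p = 0) (hpx : ¬ (p : ℤ) ∣ x) (hpy : ¬ (p : ℤ) ∣ y)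
    (hpz : ¬ (p : ℤ) ∣ z) : False := by
  rcases hp with rfl | rfl | rfl | rfl
  · exact c1_sophie (p := 5) (q := 11) (by norm_num) (by decide) (by norm_num)
      (c1_h1_of_set (by norm_num) (by norm_num) {0, 1, -1} (by decide) (by decide)) (by decide)
      hxy hyz hzx h hpx hpy hpz
  · exact c1_sophie (p := 7) (q := 29) (by norm_num) (by decide) (by norm_num)
      (c1_h1_of_set (by norm_num) (by norm_num) {0, 1, -1, 12, -12} (by decide) (by decide)) (by decide)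
      hxy hyz hzx h hpx hpy hpz
  · exact c1_sophie (p := 11) (q := 23) (by norm_num) (by decide) (by norm_num)
      (c1_h1_of_set (by norm_num) (by norm_num) {0, 1, -1} (by decide) (by decide)) (by decide)
      hxy hyz hzx h hpx hpy hpz
  · exact c1_sophie (p := 13) (q := 53) (by norm_num) (by decide) (by norm_num)
      (c1_h1_of_set (by norm_num) (by norm_num) {0, 1, -1, 23, -23} (by decide) (by decide)) (by decide)
      hxy hyz hzx h hpx hpy hpz

theorem caseI {p : ℕ} (hp : p = 5 ∨ p = 7 ∨ p = 11 ∨ p = 13) {a b c : ℤ} (hab : IsCoprime a b)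
    (h : ¬ (p : ℤ) ∣ a * b * c) : a ^ p + b ^ p ≠ c ^ p := by
  have hpp : p.Prime := by rcases hp with rfl | rfl | rfl | rfl <;> norm_num
  have hodd : Odd p := by rcases hp with rfl | rfl | rfl | rfl <;> decide
  have hp0 : p ≠ 0 := hpp.ne_zero
  intro H
  have hca : IsCoprime c a := by
    have : IsCoprime (c ^ p) a := by
      rw [← H]
      have h1 : IsCoprime (b ^ p) a := (hab.symm).pow_left
      have : a ^ p + b ^ p = b ^ p + a * a ^ (p - 1) := by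
        rw [← pow_succ', Nat.sub_add_cancel hpp.one_le]; ring
      rw [this]
      exact h1.add_mul_left_left _
    exact (IsCoprime.pow_left_iff (Nat.pos_of_ne_zero hp0)).mp this
  have hcb : IsCoprime c b := by
    have : IsCoprime (c ^ p) b := by
      rw [← H]
      have h1 : IsCoprime (a ^ p) b := hab.pow_left
      have : a ^ p + b ^ p = a ^ p + b * b ^ (p - 1) := by
        rw [← pow_succ', Nat.sub_add_cancel hpp.one_le]
      rw [this]
      exact h1.add_mul_left_left _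
    exact (IsCoprime.pow_left_iff (Nat.pos_of_ne_zero hp0)).mp this
  refine c1_aux hp (x := a) (y := b) (z := -c) hab hcb.symm.neg_right hca.neg_left ?_ ?_ ?_ ?_
  · rw [hodd.neg_pow]; linarith
  · exact fun hd => h ((hd.mul_right b).mul_right c)
  · exact fun hd => h ((hd.mul_left a).mul_right c)
  · exact fun hd => h (((dvd_neg).mp hd).mul_left (a * b))

end Fermat.Agent.Kummer
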