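/-
Kummer project, module C: Case II of FLT in a cyclotomic PID, assuming Kummer's lemma as a hypothesis `hkl`.

The descent is first carried out in an abstract principal ideal domain `R` containing a primitive
`p`-th root of unity `ζ` such that `ζ - 1` is prime with residue field of cardinality `p`.
-/
import Mathlib

set_option autoImplicit false

open NumberField

namespace Fermat.Agent.Kummer

section Abstract

open Polynomial Finset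

variable {R : Type*} [CommRing R] [IsDomain R]
  {p : ℕ} {ζ : R}

/-- Distinct `p`-th roots of unity differ by a unit times `ζ - 1`. -/
theorem caseII_sub_eq (hp : p.Prime) (hζ : IsPrimitiveRoot ζ p) {η₁ η₂ : R}
    (h₁ : η₁ ∈ nthRootsFinset p (1 : R)) (h₂ : η₂ ∈ nthRootsFinset p (1 : R)) (hne : η₁ ≠ η₂) :
    ∃ u : Rˣ, η₁ - η₂ = (ζ - 1) * u := by
  obtain ⟨u, hu⟩ := hζ.nthRootsFinset_pairwise_associated_sub_one_sub_of_prime hp h₁ h₂ hne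
  exact ⟨u, hu.symm⟩

theorem caseII_dvd_sub (hp : p.Prime) (hζ : IsPrimitiveRoot ζ p) {η₁ η₂ : R}
    (h₁ : η₁ ∈ nthRootsFinset p (1 : R)) (h₂ : η₂ ∈ nthRootsFinset p (1 : R)) :
    ζ - 1 ∣ η₁ - η₂ := by
  by_cases hne : η₁ = η₂
  · simp [hne]
  · obtain ⟨u, hu⟩ := caseII_sub_eq hp hζ h₁ h₂ hne
    exact ⟨u, hu⟩

/-- All the factors `a + η b` are divisible by `ζ - 1`. -/
theorem caseII_dvd_factor (hp : p.Prime) (hp2 : p ≠ 2) (hζ : IsPrimitiveRoot ζ p)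
    (hl : Prime (ζ - 1)) {a b : R} (h : ζ - 1 ∣ a ^ p + b ^ p) {η : R}
    (hη : η ∈ nthRootsFinset p (1 : R)) : ζ - 1 ∣ a + η * b := by
  have hodd : Odd p := hp.odd_of_ne_two hp2
  rw [hζ.pow_add_pow_eq_prod_add_mul a b hodd] at h
  obtain ⟨η₀, hη₀, hdvd⟩ := hl.exists_mem_finset_dvd h
  have h1 : a + η * b = (a + η₀ * b) + (η - η₀) * b := by ring
  rw [h1]
  exact dvd_add hdvd (Dvd.dvd.mul_right (caseII_dvd_sub hp hζ hη hη₀) _)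

/-- The quotients `x η = (a + η b) / (ζ - 1)` differ by a unit times `b`. -/
theorem caseII_x_sub (hp : p.Prime) (hζ : IsPrimitiveRoot ζ p) (hl : Prime (ζ - 1)) {a b : R}
    (x : R → R) (hx : ∀ η ∈ nthRootsFinset p (1 : R), a + η * b = (ζ - 1) * x η) {η₁ η₂ : R}
    (h₁ : η₁ ∈ nthRootsFinset p (1 : R)) (h₂ : η₂ ∈ nthRootsFinset p (1 : R)) (hne : η₁ ≠ η₂) :
    ∃ u : Rˣ, x η₁ - x η₂ = u * b ∧ η₂ * x η₁ - η₁ * x η₂ = - (u * a) := by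
  obtain ⟨u, hu⟩ := caseII_sub_eq hp hζ h₁ h₂ hne
  refine ⟨u, ?_, ?_⟩
  · apply mul_left_cancel₀ hl.ne_zero
    rw [mul_sub, ← hx η₁ h₁, ← hx η₂ h₂]
    linear_combination b * hu
  · apply mul_left_cancel₀ hl.ne_zero
    have e1 : (ζ - 1) * (η₂ * x η₁ - η₁ * x η₂) =
        η₂ * ((ζ - 1) * x η₁) - η₁ * ((ζ - 1) * x η₂) := by ring
    rw [e1, ← hx η₁ h₁, ← hx η₂ h₂]
    linear_combination (-a) * hu

theorem caseII_x_not_dvd_sub (hp : p.Prime) (hζ : IsPrimitiveRoot ζ p) (hl : Prime (ζ - 1))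
    {a b : R} (hb : ¬ ζ - 1 ∣ b)
    (x : R → R) (hx : ∀ η ∈ nthRootsFinset p (1 : R), a + η * b = (ζ - 1) * x η) {η₁ η₂ : R}
    (h₁ : η₁ ∈ nthRootsFinset p (1 : R)) (h₂ : η₂ ∈ nthRootsFinset p (1 : R)) (hne : η₁ ≠ η₂) :
    ¬ ζ - 1 ∣ x η₁ - x η₂ := by
  obtain ⟨u, hu, -⟩ := caseII_x_sub hp hζ hl x hx h₁ h₂ hne
  rw [hu]
  intro h
  exact hb ((Units.dvd_mul_left).mp (by rwa [mul_comm] at h) |> fun h' => h')

theorem caseII_x_isCoprime (hp : p.Prime) (hζ : IsPrimitiveRoot ζ p) (hl : Prime (ζ - 1))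
    {a b : R} (hab : IsCoprime a b)
    (x : R → R) (hx : ∀ η ∈ nthRootsFinset p (1 : R), a + η * b = (ζ - 1) * x η) {η₁ η₂ : R}
    (h₁ : η₁ ∈ nthRootsFinset p (1 : R)) (h₂ : η₂ ∈ nthRootsFinset p (1 : R)) (hne : η₁ ≠ η₂) :
    IsCoprime (x η₁) (x η₂) := by
  obtain ⟨u, hu1, hu2⟩ := caseII_x_sub hp hζ hl x hx h₁ h₂ hne
  obtain ⟨r, s, hrs⟩ := hab
  refine ⟨(↑u⁻¹ : R) * (s - r * η₂), (↑u⁻¹ : R) * (r * η₁ - s), ?_⟩
  have hinv : (↑u⁻¹ : R) * u = 1 := by simp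
  calc (↑u⁻¹ : R) * (s - r * η₂) * x η₁ + (↑u⁻¹ : R) * (r * η₁ - s) * x η₂
      = (↑u⁻¹ : R) * (s * (x η₁ - x η₂) - r * (η₂ * x η₁ - η₁ * x η₂)) := by ring
    _ = (↑u⁻¹ : R) * u * (r * a + s * b) := by rw [hu1, hu2]; ring
    _ = 1 := by rw [hinv, hrs, one_mul]

/-- One of the factors is divisible by `(ζ - 1) ^ 2`. -/
theorem caseII_exists_dvd_x (hp : p.Prime) (hζ : IsPrimitiveRoot ζ p) (hl : Prime (ζ - 1))
    (hcard : Nat.card (R ⧸ Ideal.span {ζ - 1}) = p)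
    {a b : R} (hb : ¬ ζ - 1 ∣ b)
    (x : R → R) (hx : ∀ η ∈ nthRootsFinset p (1 : R), a + η * b = (ζ - 1) * x η) :
    ∃ η₀ ∈ nthRootsFinset p (1 : R), ζ - 1 ∣ x η₀ := by
  have : NeZero p := ⟨hp.ne_zero⟩
  have hfin : Finite (R ⧸ Ideal.span {ζ - 1}) :=
    Nat.finite_of_card_ne_zero (by rw [hcard]; exact hp.ne_zero)
  let f : {η // η ∈ nthRootsFinset p (1 : R)} → R ⧸ Ideal.span {ζ - 1} :=
    fun η => Ideal.Quotient.mk _ (x η.1)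
  have hinj : Function.Injective f := by
    intro η₁ η₂ h
    by_contra hne
    have hne' : η₁.1 ≠ η₂.1 := fun h' => hne (Subtype.ext h')
    apply caseII_x_not_dvd_sub hp hζ hl hb x hx η₁.2 η₂.2 hne'
    rw [← Ideal.mem_span_singleton, ← Ideal.Quotient.eq]
    exact h
  have hbij := hinj.bijective_of_nat_card_le (by
    rw [hcard, Nat.card_eq_fintype_card, Fintype.card_coe, hζ.card_nthRootsFinset])
  obtain ⟨η₀, hη₀⟩ := hbij.2 0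
  refine ⟨η₀.1, η₀.2, ?_⟩
  rw [← Ideal.mem_span_singleton, ← Ideal.Quotient.eq_zero_iff_mem]
  exact hη₀

/-- Extraction of `p`-th powers from a product of two coprime factors. -/
theorem caseII_exists_eq_unit_mul_pow [IsPrincipalIdealRing R] {x z c : R} {ε : Rˣ} {k : ℕ}
    (hxz : IsCoprime x z) (h : x * z = ε * c ^ k) : ∃ (u : Rˣ) (d : R), x = u * d ^ k := by
  have h1 : Associated (c ^ k) (x * z) := ⟨ε, by rw [h, mul_comm]⟩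
  obtain ⟨d, u, hu⟩ := exists_associated_pow_of_associated_pow_mul hxz h1
  exact ⟨u, d, by rw [← hu, mul_comm]⟩

/-- The descent step, in the normalised situation where `(ζ - 1) ^ 2 ∣ a + b`. -/
theorem caseII_step [IsPrincipalIdealRing R] (hp : p.Prime) (hp2 : p ≠ 2)
    (hζ : IsPrimitiveRoot ζ p) (hl : Prime (ζ - 1))
    (hkl : ∀ (u : Rˣ) (x : R), (ζ - 1) ^ p ∣ (u : R) - x ^ p → ∃ v : Rˣ, u = v ^ p)
    {a b c : R} {ε : Rˣ} {n : ℕ} (hab : IsCoprime a b) (hb : ¬ ζ - 1 ∣ b) (hc : ¬ ζ - 1 ∣ c)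
    (h : a ^ p + b ^ p = ε * ((ζ - 1) ^ (n + 1) * c) ^ p)
    (x : R → R) (hx : ∀ η ∈ nthRootsFinset p (1 : R), a + η * b = (ζ - 1) * x η)
    (hx1 : ζ - 1 ∣ x 1) :
    ∃ (m : ℕ) (a' b' c' : R) (ε' : Rˣ), n = m + 1 ∧ IsCoprime a' b' ∧ ¬ ζ - 1 ∣ a' ∧
      ¬ ζ - 1 ∣ b' ∧ ¬ ζ - 1 ∣ c' ∧ a' ^ p + b' ^ p = ε' * ((ζ - 1) ^ (m + 1) * c') ^ p := by
  classical
  have : NeZero p := ⟨hp.ne_zero⟩
  have hodd : Odd p := hp.odd_of_ne_two hp2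
  set μ := nthRootsFinset p (1 : R) with hμ
  have h1μ : (1 : R) ∈ μ := by
    rw [hμ, mem_nthRootsFinset hp.pos]; simp
  -- the product of the `x η`
  have hprod : ∏ η ∈ μ, x η = ε * ((ζ - 1) ^ n * c) ^ p := by
    have e1 : ∏ η ∈ μ, (a + η * b) = (ζ - 1) ^ p * ∏ η ∈ μ, x η := by
      rw [Finset.prod_congr rfl hx, Finset.prod_mul_distrib, Finset.prod_const,
        hζ.card_nthRootsFinset]
    rw [hζ.pow_add_pow_eq_prod_add_mul a b hodd, e1] at h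
    apply mul_left_cancel₀ (pow_ne_zero p hl.ne_zero)
    rw [h, pow_succ (ζ - 1) n, mul_pow, mul_pow, mul_pow]; ring
  -- `x η` is not divisible by `ζ - 1` for `η ≠ 1`
  have hxη : ∀ η ∈ μ, η ≠ 1 → ¬ ζ - 1 ∣ x η := by
    intro η hη hne hdvd
    exact caseII_x_not_dvd_sub hp hζ hl hb x hx hη h1μ hne (dvd_sub hdvd hx1)
  have hcop : ∀ η₁ ∈ μ, ∀ η₂ ∈ μ, η₁ ≠ η₂ → IsCoprime (x η₁) (x η₂) :=
    fun η₁ h₁ η₂ h₂ hne => caseII_x_isCoprime hp hζ hl hab x hx h₁ h₂ hne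
  -- split off the factor `x 1`
  have hsplit : x 1 * ∏ η ∈ μ.erase 1, x η = ε * ((ζ - 1) ^ n * c) ^ p := by
    rw [Finset.mul_prod_erase μ x h1μ, hprod]
  have hnd : ¬ ζ - 1 ∣ ∏ η ∈ μ.erase 1, x η := by
    rw [hl.dvd_finsetProd_iff]
    rintro ⟨η, hη, hdvd⟩
    exact hxη η (Finset.mem_of_mem_erase hη) (Finset.ne_of_mem_erase hη) hdvd
  have hpow : (ζ - 1) ^ (n * p) ∣ x 1 := by
    apply hl.pow_dvd_of_dvd_mul_right _ hnd
    rw [hsplit, mul_pow, ← pow_mul]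
    exact ⟨ε * c ^ p, by ring⟩
  obtain ⟨y, hy⟩ := hpow
  have hyprod : y * ∏ η ∈ μ.erase 1, x η = ε * c ^ p := by
    apply mul_left_cancel₀ (pow_ne_zero (n * p) hl.ne_zero)
    rw [← mul_assoc, ← hy, hsplit, mul_pow, ← pow_mul]; ring
  have hynd : ¬ ζ - 1 ∣ y := by
    intro hdvd
    have h2 : ζ - 1 ∣ (ε : R) * c ^ p := hyprod ▸ Dvd.dvd.mul_right hdvd _
    rcases hl.dvd_or_dvd h2 with h3 | h3
    · exact hl.not_isUnit (isUnit_of_dvd_unit h3 ε.isUnit)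
    · exact hc (hl.dvd_of_dvd_pow h3)
  -- `n ≥ 1`
  obtain ⟨m, rfl⟩ : ∃ m, n = m + 1 := by
    rcases n with _ | m
    · exfalso
      apply hynd
      rw [hy] at hx1
      simpa using hx1
    · exact ⟨m, rfl⟩
  have hy1 : y ∣ x 1 := ⟨_, by rw [hy, mul_comm]⟩
  -- extraction of `p`-th powers
  have hypow : ∃ (u : Rˣ) (d : R), y = u * d ^ p := by
    refine caseII_exists_eq_unit_mul_pow ?_ hyprod
    refine IsCoprime.of_isCoprime_of_dvd_left (IsCoprime.prod_right fun η hη => ?_) hy1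
    exact hcop 1 h1μ η (Finset.mem_of_mem_erase hη) (Finset.ne_of_mem_erase hη).symm
  have hxpow : ∀ η₀ ∈ μ, η₀ ≠ 1 → ∃ (u : Rˣ) (d : R), x η₀ = u * d ^ p := by
    intro η₀ hη₀ hne
    have hmem : η₀ ∈ μ.erase 1 := Finset.mem_erase.mpr ⟨hne, hη₀⟩
    have e1 : x η₀ * (y * ∏ η ∈ (μ.erase 1).erase η₀, x η) = ε * c ^ p := by
      rw [← hyprod, ← Finset.mul_prod_erase (μ.erase 1) x hmem]; ring
    refine caseII_exists_eq_unit_mul_pow (IsCoprime.mul_right ?_ ?_) e1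
    · exact (IsCoprime.of_isCoprime_of_dvd_left (hcop 1 h1μ η₀ hη₀ hne.symm) hy1).symm
    · refine IsCoprime.prod_right fun η hη => ?_
      exact hcop η₀ hη₀ η (Finset.mem_of_mem_erase (Finset.mem_of_mem_erase hη))
        (Finset.ne_of_mem_erase hη).symm
  -- the three roots of unity `1`, `ζ`, `ζ⁻¹`
  have hp3 : 3 ≤ p := by
    have := hp.two_le
    omega
  set ζ' := ζ ^ (p - 1) with hζ'
  have hζζ' : ζ * ζ' = 1 := by
    rw [hζ', ← pow_succ', Nat.sub_add_cancel hp.one_le, hζ.pow_eq_one]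
  have hζμ : ζ ∈ μ := by
    rw [hμ, mem_nthRootsFinset hp.pos]; exact hζ.pow_eq_one
  have hζ'μ : ζ' ∈ μ := by
    rw [hμ, mem_nthRootsFinset hp.pos, hζ', ← pow_mul, mul_comm, pow_mul, hζ.pow_eq_one, one_pow]
  have hζ1 : ζ ≠ 1 := hζ.ne_one hp.one_lt
  have hζ'1 : ζ' ≠ 1 := by
    intro h1
    rw [h1, mul_one] at hζζ'
    exact hζ1 hζζ'
  have hζne : ζ ≠ ζ' := by
    intro h1
    rw [← h1, ← sq] at hζζ'
    have := hζ.dvd_of_pow_eq_one 2 hζζ'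
    have := Nat.le_of_dvd (by norm_num) this
    omega
  obtain ⟨u₀, c₀, hc₀⟩ := hypow
  obtain ⟨u₁, c₁, hc₁⟩ := hxpow ζ hζμ hζ1
  obtain ⟨u₂, c₂, hc₂⟩ := hxpow ζ' hζ'μ hζ'1
  -- the linear relation
  have hrel : x ζ + ζ * x ζ' = (1 + ζ) * x 1 := by
    apply mul_left_cancel₀ hl.ne_zero
    have e1 : (ζ - 1) * (x ζ + ζ * x ζ') = (ζ - 1) * x ζ + ζ * ((ζ - 1) * x ζ') := by ring
    have e2 : (ζ - 1) * ((1 + ζ) * x 1) = (1 + ζ) * ((ζ - 1) * x 1) := by ring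
    rw [e1, e2, ← hx ζ hζμ, ← hx ζ' hζ'μ, ← hx 1 h1μ]
    linear_combination b * hζζ'
  -- `1 + ζ` is a unit
  have hunit : IsUnit (1 + ζ) := by
    have := hζ.geom_sum_isUnit hp.two_le (j := 2) (by
      rw [Nat.coprime_comm, Nat.Prime.coprime_iff_not_dvd hp]
      intro h2
      have := Nat.le_of_dvd (by norm_num) h2
      omega)
    simpa [Finset.sum_range_succ] using this
  obtain ⟨w, hw⟩ := hunit
  obtain ⟨ζu, hζu⟩ := hζ.isUnit hp.ne_zero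
  -- non-divisibility
  have hc₀nd : ¬ ζ - 1 ∣ c₀ := fun hd => hynd (by
    rw [hc₀]; exact Dvd.dvd.mul_left (dvd_pow hd hp.ne_zero) _)
  have hc₁nd : ¬ ζ - 1 ∣ c₁ := fun hd => hxη ζ hζμ hζ1 (by
    rw [hc₁]; exact Dvd.dvd.mul_left (dvd_pow hd hp.ne_zero) _)
  have hc₂nd : ¬ ζ - 1 ∣ c₂ := fun hd => hxη ζ' hζ'μ hζ'1 (by
    rw [hc₂]; exact Dvd.dvd.mul_left (dvd_pow hd hp.ne_zero) _)
  -- the new equation
  have hinv : (↑u₁⁻¹ : R) * u₁ = 1 := by simp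
  have hnew : c₁ ^ p + ((ζu * u₂ * u₁⁻¹ : Rˣ) : R) * c₂ ^ p =
      ((w * u₀ * u₁⁻¹ : Rˣ) : R) * ((ζ - 1) ^ (m + 1) * c₀) ^ p := by
    rw [hc₁, hc₂, hy, hc₀] at hrel
    push_cast
    rw [hζu, hw, mul_pow, ← pow_mul]
    linear_combination (↑u₁⁻¹ : R) * hrel - c₁ ^ p * hinv
  -- Kummer's lemma
  have hcop2 : IsCoprime c₂ ((ζ - 1) ^ p) :=
    ((hl.irreducible.coprime_iff_not_dvd).mpr hc₂nd).symm.pow_right
  obtain ⟨d, e, hde⟩ := hcop2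
  have hk : (ζ - 1) ^ p ∣ ((ζu * u₂ * u₁⁻¹ : Rˣ) : R) - (-(c₁ * d)) ^ p := by
    have e1 : (ζ - 1) ^ p ∣ 1 - (d * c₂) ^ p := by
      have h1 : (1 : R) - d * c₂ ∣ 1 ^ p - (d * c₂) ^ p := sub_dvd_pow_sub_pow _ _ _
      rw [one_pow] at h1
      refine dvd_trans ⟨e, ?_⟩ h1
      linear_combination -hde
    have e2 : (ζ - 1) ^ p ∣ ((ζ - 1) ^ (m + 1) * c₀) ^ p := by
      rw [mul_pow, ← pow_mul, add_mul, one_mul, pow_add]
      exact ⟨(ζ - 1) ^ (m * p) * c₀ ^ p, by ring⟩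
    have e3 : ((ζu * u₂ * u₁⁻¹ : Rˣ) : R) - (-(c₁ * d)) ^ p =
        ((ζu * u₂ * u₁⁻¹ : Rˣ) : R) * (1 - (d * c₂) ^ p) +
          d ^ p * (((w * u₀ * u₁⁻¹ : Rˣ) : R) * ((ζ - 1) ^ (m + 1) * c₀) ^ p) := by
      rw [← hnew, hodd.neg_pow, mul_pow, mul_pow]; ring
    rw [e3]
    exact dvd_add (Dvd.dvd.mul_left e1 _) (Dvd.dvd.mul_left (Dvd.dvd.mul_left e2 _) _)
  obtain ⟨v, hv⟩ := hkl _ _ hk
  refine ⟨m, c₁, v * c₂, c₀, w * u₀ * u₁⁻¹, rfl, ?_, hc₁nd, ?_, hc₀nd, ?_⟩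
  · have h1 : IsCoprime (x ζ) (x ζ') := hcop ζ hζμ ζ' hζ'μ hζne
    rw [hc₁, hc₂] at h1
    have h2 : IsCoprime (c₁ ^ p) (c₂ ^ p) :=
      (isCoprime_mul_unit_left_left u₁.isUnit _ _).mp
        ((isCoprime_mul_unit_left_right u₂.isUnit _ _).mp h1)
    exact (isCoprime_mul_unit_left_right v.isUnit _ _).mpr
      ((IsCoprime.pow_iff hp.pos hp.pos).mp h2)
  · intro hd
    exact hc₂nd ((Units.dvd_mul_left).mp (by rwa [mul_comm] at hd))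
  · rw [← hnew, hv, mul_pow]
    push_cast
    ring

/-- The descent step in general. -/
theorem caseII_reduce [IsPrincipalIdealRing R] (hp : p.Prime) (hp2 : p ≠ 2)
    (hζ : IsPrimitiveRoot ζ p) (hl : Prime (ζ - 1))
    (hcard : Nat.card (R ⧸ Ideal.span {ζ - 1}) = p)
    (hkl : ∀ (u : Rˣ) (x : R), (ζ - 1) ^ p ∣ (u : R) - x ^ p → ∃ v : Rˣ, u = v ^ p)
    {a b c : R} {ε : Rˣ} {n : ℕ} (hab : IsCoprime a b) (hb : ¬ ζ - 1 ∣ b) (hc : ¬ ζ - 1 ∣ c)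
    (h : a ^ p + b ^ p = ε * ((ζ - 1) ^ (n + 1) * c) ^ p) :
    ∃ (m : ℕ) (a' b' c' : R) (ε' : Rˣ), n = m + 1 ∧ IsCoprime a' b' ∧ ¬ ζ - 1 ∣ a' ∧
      ¬ ζ - 1 ∣ b' ∧ ¬ ζ - 1 ∣ c' ∧ a' ^ p + b' ^ p = ε' * ((ζ - 1) ^ (m + 1) * c') ^ p := by
  have hdvd : ζ - 1 ∣ a ^ p + b ^ p := by
    rw [h, mul_pow, ← pow_mul]
    refine Dvd.dvd.mul_left (Dvd.dvd.mul_right (dvd_pow_self _ ?_) _) _
    exact Nat.mul_ne_zero (Nat.succ_ne_zero n) hp.ne_zero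
  choose! x hx using fun (η : R) (hη : η ∈ nthRootsFinset p (1 : R)) =>
    caseII_dvd_factor hp hp2 hζ hl hdvd hη
  obtain ⟨η₀, hη₀, hdvd0⟩ := caseII_exists_dvd_x hp hζ hl hcard hb x hx
  have hη₀p : η₀ ^ p = 1 := (mem_nthRootsFinset hp.pos 1).mp hη₀
  have hη₀u : IsUnit η₀ := IsUnit.of_pow_eq_one hη₀p hp.ne_zero
  refine caseII_step hp hp2 hζ hl hkl (a := a) (b := η₀ * b) (c := c) (ε := ε) (n := n)
    ((isCoprime_mul_unit_left_right hη₀u _ _).mpr hab) ?_ hc ?_ (fun η => x (η * η₀)) ?_ ?_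
  · intro hd
    exact hb ((hη₀u.dvd_mul_left).mp hd)
  · rw [mul_pow, hη₀p, one_mul, h]
  · intro η hη
    have hmem : η * η₀ ∈ nthRootsFinset p (1 : R) := by
      rw [mem_nthRootsFinset hp.pos] at hη ⊢
      rw [mul_pow, hη, hη₀p, one_mul]
    rw [← hx _ hmem]; ring
  · simpa using hdvd0

/-- The abstract form of case II. -/
theorem caseII_abstract [IsPrincipalIdealRing R] (hp : p.Prime) (hp2 : p ≠ 2)
    (hζ : IsPrimitiveRoot ζ p) (hl : Prime (ζ - 1))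
    (hcard : Nat.card (R ⧸ Ideal.span {ζ - 1}) = p)
    (hkl : ∀ (u : Rˣ) (x : R), (ζ - 1) ^ p ∣ (u : R) - x ^ p → ∃ v : Rˣ, u = v ^ p) (n : ℕ) :
    ∀ (a b c : R) (ε : Rˣ), IsCoprime a b → ¬ ζ - 1 ∣ a → ¬ ζ - 1 ∣ b → ¬ ζ - 1 ∣ c →
      a ^ p + b ^ p ≠ ε * ((ζ - 1) ^ (n + 1) * c) ^ p := by
  induction n with
  | zero =>
    intro a b c ε hab ha hb hc h
    obtain ⟨m, -, -, -, -, hm, -⟩ := caseII_reduce hp hp2 hζ hl hcard hkl hab hb hc h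
    omega
  | succ k ih =>
    intro a b c ε hab ha hb hc h
    obtain ⟨m, a', b', c', ε', hm, hab', ha', hb', hc', h'⟩ :=
      caseII_reduce hp hp2 hζ hl hcard hkl hab hb hc h
    obtain rfl : k = m := by omega
    exact ih a' b' c' ε' hab' ha' hb' hc' h'

end Abstract

theorem caseII_gen {p : ℕ} [hp : Fact p.Prime] (hp2 : p ≠ 2)
    (K : Type) [Field K] [NumberField K] [IsCyclotomicExtension {p} ℚ K] [IsPrincipalIdealRing (𝓞 K)]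
    {ζ : K} (hζ : IsPrimitiveRoot ζ p)
    (hkl : ∀ (u : (𝓞 K)ˣ) (x : 𝓞 K), (hζ.toInteger - 1) ^ p ∣ (u : 𝓞 K) - x ^ p → ∃ v : (𝓞 K)ˣ, u = v ^ p)
    (a b c : 𝓞 K) (ε : (𝓞 K)ˣ) (hab : IsCoprime a b) (ha : ¬ (hζ.toInteger - 1) ∣ a)
    (hb : ¬ (hζ.toInteger - 1) ∣ b) (hc : (hζ.toInteger - 1) ∣ c) (hc0 : c ≠ 0) :
    a ^ p + b ^ p ≠ ε * c ^ p := by
  have hl : Prime (hζ.toInteger - 1) := hζ.zeta_sub_one_prime'
  have hcard : Nat.card (𝓞 K ⧸ Ideal.span {hζ.toInteger - 1}) = p := by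
    rw [hζ.card_quotient_toInteger_sub_one, hζ.norm_toInteger_sub_one_of_prime_ne_two' hp2]
    simp
  obtain ⟨n, c', hc', rfl⟩ := WfDvdMonoid.max_power_factor hc0 hl.irreducible
  obtain ⟨m, rfl⟩ : ∃ m, n = m + 1 := by
    rcases n with _ | m
    · exfalso
      apply hc'
      simpa using hc
    · exact ⟨m, rfl⟩
  exact caseII_abstract hp.out hp2 hζ.toInteger_isPrimitiveRoot hl hcard hkl m a b c' ε hab ha hb hc'

/-- Case II over `ℤ`. -/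
theorem caseII {p : ℕ} [hp : Fact p.Prime] (hp2 : p ≠ 2)
    (K : Type) [Field K] [NumberField K] [IsCyclotomicExtension {p} ℚ K] [IsPrincipalIdealRing (𝓞 K)]
    {ζ : K} (hζ : IsPrimitiveRoot ζ p)
    (hkl : ∀ (u : (𝓞 K)ˣ) (x : 𝓞 K), (hζ.toInteger - 1) ^ p ∣ (u : 𝓞 K) - x ^ p → ∃ v : (𝓞 K)ˣ, u = v ^ p)
    {a b c : ℤ} (hab : IsCoprime a b) (hc0 : c ≠ 0) (hc : (p : ℤ) ∣ c) :
    a ^ p + b ^ p ≠ c ^ p := by
  intro H
  have hl : Prime (hζ.toInteger - 1) := hζ.zeta_sub_one_prime'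
  have hab' : IsCoprime (a : 𝓞 K) (b : 𝓞 K) := by
    simpa using hab.map (Int.castRingHom (𝓞 K))
  have hc' : hζ.toInteger - 1 ∣ (c : 𝓞 K) := by
    obtain ⟨k, rfl⟩ := hc
    push_cast
    exact Dvd.dvd.mul_right hζ.toInteger_sub_one_dvd_prime' _
  have H' : (a : 𝓞 K) ^ p + (b : 𝓞 K) ^ p = ((1 : (𝓞 K)ˣ) : 𝓞 K) * (c : 𝓞 K) ^ p := by
    rw [Units.val_one, one_mul]
    exact_mod_cast congrArg (Int.cast : ℤ → 𝓞 K) H
  have hcp : hζ.toInteger - 1 ∣ (c : 𝓞 K) ^ p := dvd_pow hc' hp.out.ne_zero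
  have hnot : ∀ x y : 𝓞 K, IsCoprime x y → x ^ p + y ^ p = ((1 : (𝓞 K)ˣ) : 𝓞 K) * (c : 𝓞 K) ^ p →
      ¬ hζ.toInteger - 1 ∣ x := by
    intro x y hxy hxyc hx
    have h1 : hζ.toInteger - 1 ∣ y ^ p := by
      have h2 : y ^ p = ((1 : (𝓞 K)ˣ) : 𝓞 K) * (c : 𝓞 K) ^ p - x ^ p := by rw [← hxyc]; ring
      rw [h2]
      exact dvd_sub (Dvd.dvd.mul_left hcp _) (dvd_pow hx hp.out.ne_zero)
    exact hl.not_isUnit (hxy.isUnit_of_dvd' hx (hl.dvd_of_dvd_pow h1))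
  refine caseII_gen hp2 K hζ hkl (a : 𝓞 K) (b : 𝓞 K) (c : 𝓞 K) 1 hab' (hnot _ _ hab' H')
    (hnot _ _ hab'.symm (by rw [add_comm]; exact H')) hc' (by exact_mod_cast hc0) H'

end Fermat.Agent.Kummer
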