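import Mathlib

set_option autoImplicit false
set_option linter.style.haveILetI false

/-!
# Kummer's lemma from a filtration of the unit group

Abstract part: if a commutative group `E` is generated by `d` elements, and a decreasing filtration
`T i` (containing all `p`-th powers up to level `m`) has at least `d` strict jumps below `m`, then
every element of `T m` is a `p`-th power.
-/

namespace Fermat.Agent.Kummer

section Chain

lemma finrank_chain {F V : Type*} [Field F] [AddCommGroup V] [Module F V] [FiniteDimensional F V]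
    (S : ℕ → Submodule F V) (hS : ∀ i, S (i + 1) ≤ S i) (J : Finset ℕ)
    (hJ : ∀ j ∈ J, S (j + 1) ≠ S j) (n : ℕ) :
    Module.finrank F (S n) + (J.filter (· < n)).card ≤ Module.finrank F (S 0) := by
  induction n with
  | zero => simp
  | succ n ih =>
    by_cases hn : n ∈ J
    · have hlt : S (n + 1) < S n := lt_of_le_of_ne (hS n) (hJ n hn)
      have h1 := Submodule.finrank_lt_finrank_of_lt hlt
      have hcard : (J.filter (· < n + 1)).card = (J.filter (· < n)).card + 1 := by
        have h2 : J.filter (· < n + 1) = insert n (J.filter (· < n)) := by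
          ext x
          simp only [Finset.mem_filter, Finset.mem_insert]
          constructor
          · rintro ⟨hx, hxn⟩
            by_cases hxe : x = n
            · exact Or.inl hxe
            · exact Or.inr ⟨hx, by omega⟩
          · rintro (rfl | ⟨hx, hxn⟩)
            · exact ⟨hn, by omega⟩
            · exact ⟨hx, by omega⟩
        rw [h2, Finset.card_insert_of_notMem (by simp)]
      omega
    · have h1 := Submodule.finrank_mono (hS n)
      have hcard : J.filter (· < n + 1) = J.filter (· < n) := by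
        ext x
        simp only [Finset.mem_filter]
        constructor
        · rintro ⟨hx, hxn⟩
          refine ⟨hx, ?_⟩
          have : x ≠ n := fun h => hn (h ▸ hx)
          omega
        · rintro ⟨hx, hxn⟩
          exact ⟨hx, by omega⟩
      rw [hcard]
      omega

end Chain

section Group

variable (E : Type*) [CommGroup E] (p : ℕ)

/-- `E / E^p`, written additively. -/
def PowQuot : Type _ := Additive (E ⧸ (powMonoidHom p : E →* E).range)

instance : AddCommGroup (PowQuot E p) :=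
  inferInstanceAs (AddCommGroup (Additive (E ⧸ (powMonoidHom p : E →* E).range)))

variable {E p}

/-- The projection `E → E / E^p`. -/
def PowQuot.mk (z : E) : PowQuot E p := Additive.ofMul (z : E ⧸ (powMonoidHom p : E →* E).range)

lemma PowQuot.mk_mul (a b : E) : (PowQuot.mk (a * b) : PowQuot E p) = PowQuot.mk a + PowQuot.mk b :=
  rfl

lemma PowQuot.mk_one : (PowQuot.mk (1 : E) : PowQuot E p) = 0 := rfl

lemma PowQuot.mk_surj (q : PowQuot E p) : ∃ z : E, PowQuot.mk z = q := by
  obtain ⟨z, hz⟩ := QuotientGroup.mk_surjective (Additive.toMul q)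
  exact ⟨z, by rw [PowQuot.mk, hz]; rfl⟩

lemma PowQuot.mk_eq {a b : E} (hab : (PowQuot.mk a : PowQuot E p) = PowQuot.mk b) :
    ∃ v, a = b * v ^ p := by
  have h1 : ((a : E) : E ⧸ (powMonoidHom p : E →* E).range) = (b : E ⧸ _) :=
    Additive.ofMul.injective hab
  rw [eq_comm, QuotientGroup.eq] at h1
  obtain ⟨v, hv⟩ := h1
  refine ⟨v, ?_⟩
  have hv' : v ^ p = b⁻¹ * a := hv
  rw [hv']
  group

lemma PowQuot.nsmul_eq_zero (x : PowQuot E p) : p • x = 0 := by
  obtain ⟨z, rfl⟩ := PowQuot.mk_surj x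
  have h1 : p • (PowQuot.mk z : PowQuot E p) = PowQuot.mk (z ^ p) := rfl
  rw [h1]
  have : ((z ^ p : E) : E ⧸ (powMonoidHom p : E →* E).range) = 1 := by
    rw [QuotientGroup.eq_one_iff]
    exact ⟨z, rfl⟩
  rw [PowQuot.mk, this]
  rfl

instance : Module (ZMod p) (PowQuot E p) := AddCommGroup.zmodModule PowQuot.nsmul_eq_zero

lemma PowQuot.mk_zpow (a : E) (n : ℤ) :
    (PowQuot.mk (a ^ n) : PowQuot E p) = (n : ZMod p) • PowQuot.mk a := by
  rw [Int.cast_smul_eq_zsmul]
  rfl

lemma PowQuot.mk_prod {ι : Type*} (s : Finset ι) (f : ι → E) :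
    (PowQuot.mk (∏ i ∈ s, f i) : PowQuot E p) = ∑ i ∈ s, PowQuot.mk (f i) := by
  classical
  induction s using Finset.induction_on with
  | empty => simp [PowQuot.mk_one]
  | insert a s ha ih => rw [Finset.prod_insert ha, Finset.sum_insert ha, PowQuot.mk_mul, ih]

/-- The image in `E / E^p` of a multiplicatively closed predicate. -/
def filtSub [NeZero p] (T : E → Prop) (hT1 : T 1) (hTmul : ∀ u v, T u → T v → T (u * v)) :
    Submodule (ZMod p) (PowQuot E p) where
  carrier := {q | ∃ z, T z ∧ PowQuot.mk z = q}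
  zero_mem' := ⟨1, hT1, PowQuot.mk_one⟩
  add_mem' := by
    rintro _ _ ⟨a, ha, rfl⟩ ⟨b, hb, rfl⟩
    exact ⟨a * b, hTmul a b ha hb, PowQuot.mk_mul a b⟩
  smul_mem' := by
    rintro c _ ⟨a, ha, rfl⟩
    refine ⟨a ^ c.val, ?_, ?_⟩
    · induction c.val with
      | zero => simpa using hT1
      | succ n ih => rw [pow_succ]; exact hTmul _ _ ih ha
    · have h1 : c • (PowQuot.mk a : PowQuot E p) = c.val • PowQuot.mk a := by
        rw [← Nat.cast_smul_eq_nsmul (ZMod p), ZMod.natCast_zmod_val]
      rw [h1]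
      rfl

lemma mem_filtSub [NeZero p] {T : E → Prop} {hT1 : T 1} {hTmul : ∀ u v, T u → T v → T (u * v)}
    {q : PowQuot E p} : q ∈ filtSub T hT1 hTmul ↔ ∃ z, T z ∧ PowQuot.mk z = q := Iff.rfl

theorem exists_pow_eq_of_filtration [Fact p.Prime]
    (T : ℕ → E → Prop) (hT1 : ∀ i, T i 1) (hTmul : ∀ i u v, T i u → T i v → T i (u * v))
    (hTanti : ∀ i u, T (i + 1) u → T i u)
    (m : ℕ) (hTpow : ∀ i ≤ m, ∀ v : E, T i (v ^ p))
    {d : ℕ} (g : Fin d → E) (hg : ∀ u : E, ∃ e : Fin d → ℤ, u = ∏ i, g i ^ e i)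
    (J : Finset ℕ) (hJd : d ≤ J.card)
    (hJ : ∀ j ∈ J, j + 1 ≤ m ∧ ∃ θ : E, T j θ ∧ ¬ T (j + 1) θ)
    (u : E) (hu : T m u) : ∃ v : E, u = v ^ p := by
  classical
  let S : ℕ → Submodule (ZMod p) (PowQuot E p) := fun i => filtSub (T i) (hT1 i) (hTmul i)
  have hSanti : ∀ i, S (i + 1) ≤ S i := by
    intro i q hq
    obtain ⟨z, hz, rfl⟩ := mem_filtSub.1 hq
    exact mem_filtSub.2 ⟨z, hTanti i z hz, rfl⟩
  have hSJ : ∀ j ∈ J, S (j + 1) ≠ S j := by
    intro j hj heq
    obtain ⟨hjm, θ, hθ, hθ'⟩ := hJ j hj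
    have h1 : (PowQuot.mk θ : PowQuot E p) ∈ S j := mem_filtSub.2 ⟨θ, hθ, rfl⟩
    rw [← heq] at h1
    obtain ⟨z, hz, hzθ⟩ := mem_filtSub.1 h1
    obtain ⟨v, hv⟩ := PowQuot.mk_eq hzθ.symm
    apply hθ'
    rw [hv]
    exact hTmul _ _ _ hz (hTpow _ hjm v)
  have hspan : Submodule.span (ZMod p) (Set.range fun i => (PowQuot.mk (g i) : PowQuot E p)) = ⊤ := by
    rw [eq_top_iff]
    intro q _
    obtain ⟨z, rfl⟩ := PowQuot.mk_surj q
    obtain ⟨e, he⟩ := hg z
    rw [he, PowQuot.mk_prod]
    refine Submodule.sum_mem _ fun i _ => ?_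
    rw [PowQuot.mk_zpow]
    exact Submodule.smul_mem _ _ (Submodule.subset_span ⟨i, rfl⟩)
  haveI : Module.Finite (ZMod p) (PowQuot E p) :=
    ⟨⟨(Set.finite_range fun i => (PowQuot.mk (g i) : PowQuot E p)).toFinset,
      by simpa using hspan⟩⟩
  have hfin : Module.finrank (ZMod p) (PowQuot E p) ≤ d := by
    have h1 := finrank_range_le_card (R := ZMod p) (fun i => (PowQuot.mk (g i) : PowQuot E p))
    rw [Set.finrank, hspan, finrank_top, Fintype.card_fin] at h1
    exact h1
  have hchain := finrank_chain S hSanti J hSJ m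
  have hfilter : J.filter (· < m) = J := by
    apply Finset.filter_true_of_mem
    intro j hj
    have := (hJ j hj).1
    omega
  rw [hfilter] at hchain
  have h0 : Module.finrank (ZMod p) (S 0) ≤ Module.finrank (ZMod p) (PowQuot E p) :=
    Submodule.finrank_le _
  have hzero : Module.finrank (ZMod p) (S m) = 0 := by omega
  have hbot : S m = ⊥ := Submodule.finrank_eq_zero.1 hzero
  have hmem : (PowQuot.mk u : PowQuot E p) ∈ S m := mem_filtSub.2 ⟨u, hu, rfl⟩
  rw [hbot, Submodule.mem_bot] at hmem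
  obtain ⟨v, hv⟩ := PowQuot.mk_eq (hmem.trans PowQuot.mk_one.symm)
  exact ⟨v, by rw [hv, one_mul]⟩

end Group

end Fermat.Agent.Kummer
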