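import Mathlib
import Fermat.Agent.Kummer.UnitFiltration

set_option autoImplicit false

/-!
# Congruence to a rational integer modulo powers of `λ`, and Kummer's lemma from jump units
-/

open NumberField

namespace Fermat.Agent.Kummer

section Ring

variable {O : Type*} [CommRing O]

/-- `x` is congruent to a rational integer modulo `l ^ i`. -/
def IntMod (l : O) (i : ℕ) (x : O) : Prop := ∃ n : ℤ, l ^ i ∣ x - (n : O)

lemma IntMod.one (l : O) (i : ℕ) : IntMod l i 1 := ⟨1, by simp⟩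

lemma IntMod.mul {l : O} {i : ℕ} {x y : O} (hx : IntMod l i x) (hy : IntMod l i y) :
    IntMod l i (x * y) := by
  obtain ⟨n, hn⟩ := hx
  obtain ⟨m, hm⟩ := hy
  refine ⟨n * m, ?_⟩
  have : x * y - ((n * m : ℤ) : O) = (x - n) * y + n * (y - m) := by push_cast; ring
  rw [this]
  exact dvd_add (hn.mul_right _) (hm.mul_left _)

lemma IntMod.mono {l : O} {i j : ℕ} (hij : i ≤ j) {x : O} (hx : IntMod l j x) : IntMod l i x := by
  obtain ⟨n, hn⟩ := hx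
  exact ⟨n, (pow_dvd_pow l hij).trans hn⟩

lemma IntMod.pow_prime {l : O} {p : ℕ} (hp : p.Prime) (hl : l ^ (p - 1) ∣ (p : O)) {x : O}
    (hx : IntMod l 1 x) : IntMod l p (x ^ p) := by
  obtain ⟨n, c, hc⟩ := hx
  have hx' : x = n + l * c := by rw [pow_one] at hc; linear_combination hc
  obtain ⟨r, hr⟩ := exists_add_pow_prime_eq hp (n : O) (l * c)
  obtain ⟨d, hd⟩ := hl
  have hlp : l ^ p = l ^ (p - 1) * l := by rw [← pow_succ, Nat.sub_add_cancel hp.one_le]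
  refine ⟨n ^ p, c ^ p + d * n * c * r, ?_⟩
  rw [hx', hr, hd]
  push_cast
  rw [mul_pow, hlp]
  ring

/-- A unit at exact level `j` is not congruent to an integer modulo `l ^ (j + 1)`. -/
lemma not_intMod_of_level [IsDomain O] {l : O} (hl0 : l ≠ 0) {p : ℕ}
    (hlp : l ^ (p - 1) ∣ (p : O)) (hint : ∀ n : ℤ, l ∣ (n : O) → (p : ℤ) ∣ n) {j : ℕ} (hj1 : 1 ≤ j)
    (hj : j + 1 ≤ p - 1) {x : O} {a c : ℤ} (hc : ¬ (p : ℤ) ∣ c)
    (h : l ^ (j + 1) ∣ x - ((a : O) + c * l ^ j)) : ¬ IntMod l (j + 1) x := by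
  rintro ⟨B, hB⟩
  have h1 : l ^ (j + 1) ∣ ((B - a : ℤ) : O) - (c : O) * l ^ j := by
    have : ((B - a : ℤ) : O) - (c : O) * l ^ j = (x - ((a : O) + c * l ^ j)) - (x - B) := by
      push_cast; ring
    rw [this]
    exact dvd_sub h hB
  have hl1 : l ∣ l ^ (j + 1) := dvd_pow_self l (by omega)
  have hl2 : l ∣ l ^ j := dvd_pow_self l (by omega)
  have h2 : l ∣ ((B - a : ℤ) : O) := by
    have := (hl1.trans h1)
    rwa [dvd_sub_left (hl2.mul_left _)] at this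
  have h3 : (p : ℤ) ∣ B - a := hint _ h2
  have h4 : l ^ (j + 1) ∣ ((B - a : ℤ) : O) := by
    obtain ⟨k, hk⟩ := h3
    rw [hk]
    push_cast
    exact ((pow_dvd_pow l hj).trans hlp).mul_right _
  have h5 : l ^ (j + 1) ∣ (c : O) * l ^ j := by
    rwa [dvd_sub_right h4] at h1
  have h6 : l ∣ (c : O) := by
    rw [pow_succ, mul_comm] at h5
    exact (mul_dvd_mul_iff_right (pow_ne_zero j hl0)).1 h5
  exact hc (hint _ h6)

end Ring

section NumberField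

variable {p : ℕ} [hp : Fact p.Prime] (K : Type*) [Field K] [NumberField K]
  [IsCyclotomicExtension {p} ℚ K] {ζ : K} (hζ : IsPrimitiveRoot ζ p)

include hζ in
lemma intMod_one_all (x : 𝓞 K) : IntMod (hζ.toInteger - 1) 1 x := by
  obtain ⟨f, hf⟩ := hζ.subOneIntegralPowerBasis.exists_eq_aeval' x
  have hgen : hζ.subOneIntegralPowerBasis.gen = hζ.toInteger - 1 := by
    rw [IsPrimitiveRoot.subOneIntegralPowerBasis_gen]
    rfl
  rw [hgen] at hf
  refine ⟨f.coeff 0, ?_⟩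
  rw [pow_one, hf]
  have h1 := Polynomial.sub_dvd_eval_sub (hζ.toInteger - 1) 0 (f.map (algebraMap ℤ (𝓞 K)))
  rw [sub_zero, Polynomial.eval_map_algebraMap, ← Polynomial.coeff_zero_eq_eval_zero,
    Polynomial.coeff_map] at h1
  simpa using h1

lemma rank_add_one (hp2 : 2 < p) : Units.rank K + 1 = (p - 1) / 2 := by
  have h1 : Fintype.card (InfinitePlace K) = (p - 1) / 2 := by
    rw [InfinitePlace.card_eq_nrRealPlaces_add_nrComplexPlaces,
      IsCyclotomicExtension.Rat.nrRealPlaces_eq_zero K hp2,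
      IsCyclotomicExtension.Rat.nrComplexPlaces_eq_totient_div_two p K, Nat.totient_prime hp.out,
      zero_add]
  rw [Units.rank, h1]
  have : 1 ≤ (p - 1) / 2 := by omega
  omega

lemma exists_generators :
    ∃ g : Fin (Units.rank K + 1) → (𝓞 K)ˣ, ∀ u : (𝓞 K)ˣ, ∃ e : Fin (Units.rank K + 1) → ℤ,
      u = ∏ i, g i ^ e i := by
  obtain ⟨τ, hτ⟩ := IsCyclic.exists_generator (α := Units.torsion K)
  refine ⟨Fin.cons (τ : (𝓞 K)ˣ) (Units.fundSystem K), fun u => ?_⟩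
  obtain ⟨⟨t, e⟩, hte, -⟩ := Units.exist_unique_eq_mul_prod K u
  obtain ⟨k, hk⟩ := Subgroup.mem_zpowers_iff.1 (hτ t)
  refine ⟨Fin.cons k e, ?_⟩
  rw [Fin.prod_univ_succ]
  simp only [Fin.cons_zero, Fin.cons_succ]
  rw [hte]
  congr 1
  rw [← hk]
  simp

theorem kummer_of_jumps (hp2 : 2 < p) (J : Finset ℕ) (hJcard : (p - 1) / 2 ≤ J.card)
    (hJ : ∀ j ∈ J, 1 ≤ j ∧ j + 1 ≤ p - 1 ∧ ∃ (θ : (𝓞 K)ˣ) (a c : ℤ), ¬ (p : ℤ) ∣ c ∧
      (hζ.toInteger - 1) ^ (j + 1) ∣ (θ : 𝓞 K) - ((a : 𝓞 K) + c * (hζ.toInteger - 1) ^ j))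
    (u : (𝓞 K)ˣ) (hu : IntMod (hζ.toInteger - 1) (p - 1) (u : 𝓞 K)) : ∃ v : (𝓞 K)ˣ, u = v ^ p := by
  obtain ⟨g, hg⟩ := exists_generators K
  have hlp : (hζ.toInteger - 1) ^ (p - 1) ∣ (p : 𝓞 K) :=
    (IsCyclotomicExtension.Rat.associated_zeta_sub_one_pow_prime p hζ).dvd
  have hl0 : hζ.toInteger - 1 ≠ 0 := hζ.zeta_sub_one_prime'.ne_zero
  have hint : ∀ n : ℤ, hζ.toInteger - 1 ∣ (n : 𝓞 K) → (p : ℤ) ∣ n := fun n hn =>
    (IsCyclotomicExtension.Rat.zeta_sub_one_dvd_intCast_iff' p hζ).1 hn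
  refine exists_pow_eq_of_filtration (p := p)
    (fun i (w : (𝓞 K)ˣ) => IntMod (hζ.toInteger - 1) i (w : 𝓞 K)) ?_ ?_ ?_ (p - 1) ?_ g hg J ?_ ?_ u hu
  · intro i
    simpa using IntMod.one _ i
  · intro i a b ha hb
    simpa using ha.mul hb
  · intro i a ha
    exact ha.mono (Nat.le_succ i)
  · intro i hi v
    have h1 := IntMod.pow_prime hp.out hlp (intMod_one_all K hζ (v : 𝓞 K))
    simpa using h1.mono (by omega : i ≤ p)
  · rw [rank_add_one K hp2]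
    exact hJcard
  · intro j hj
    obtain ⟨hj1, hj2, θ, a, c, hc, h⟩ := hJ j hj
    refine ⟨hj2, θ, ⟨a, ?_⟩, not_intMod_of_level hl0 hlp hint hj1 hj2 hc h⟩
    have h2 : (θ : 𝓞 K) - (a : 𝓞 K) = ((θ : 𝓞 K) - ((a : 𝓞 K) + c * (hζ.toInteger - 1) ^ j))
        + c * (hζ.toInteger - 1) ^ j := by ring
    rw [h2]
    exact dvd_add ((pow_dvd_pow _ (Nat.le_succ j)).trans h) (Dvd.intro_left _ rfl)

end NumberField

end Fermat.Agent.Kummer
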