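import Mathlib

set_option autoImplicit false

/-!
# Kernel-computable truncated polynomial arithmetic on `List ℤ`
-/

namespace Fermat.Agent.Kummer

/-- Evaluate a list of integer coefficients (lowest degree first) at `x`. -/
def ev {R : Type*} [CommRing R] (x : R) : List ℤ → R
  | [] => 0
  | a :: l => (a : R) + x * ev x l

/-- Addition of coefficient lists. -/
def ladd : List ℤ → List ℤ → List ℤ
  | [], l => l
  | a :: l, [] => a :: l
  | a :: l, b :: l' => (a + b) :: ladd l l'

/-- Multiplication of coefficient lists. -/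
def lmul : List ℤ → List ℤ → List ℤ
  | [], _ => []
  | a :: l, l' => ladd (l'.map (a * ·)) (0 :: lmul l l')

/-- Truncate at degree `< m` and reduce the coefficients modulo `p`. -/
def lred (p : ℤ) (m : ℕ) (l : List ℤ) : List ℤ := (l.take m).map (· % p)

/-- Truncated, reduced power. -/
def lpow (p : ℤ) (m : ℕ) (l : List ℤ) : ℕ → List ℤ
  | 0 => [1]
  | n + 1 => lred p m (lmul (lpow p m l n) l)

section

variable {R : Type*} [CommRing R] (x : R)

@[simp] lemma ev_nil : ev x [] = 0 := rfl

@[simp] lemma ev_cons (a : ℤ) (l : List ℤ) : ev x (a :: l) = (a : R) + x * ev x l := rfl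

lemma ev_ladd : ∀ l l' : List ℤ, ev x (ladd l l') = ev x l + ev x l'
  | [], l => by simp [ladd]
  | a :: l, [] => by simp [ladd]
  | a :: l, b :: l' => by
    simp only [ladd, ev_cons, ev_ladd l l']
    push_cast
    ring

lemma ev_map_mul (a : ℤ) : ∀ l : List ℤ, ev x (l.map (a * ·)) = (a : R) * ev x l
  | [] => by simp
  | b :: l => by
    simp only [List.map_cons, ev_cons, ev_map_mul a l]
    push_cast
    ring

lemma ev_lmul : ∀ l l' : List ℤ, ev x (lmul l l') = ev x l * ev x l'
  | [], _ => by simp [lmul]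
  | a :: l, l' => by
    simp only [lmul, ev_ladd, ev_map_mul, ev_cons, ev_lmul l l']
    push_cast
    ring

lemma dvd_ev_sub_take : ∀ (m : ℕ) (l : List ℤ), x ^ m ∣ ev x l - ev x (l.take m)
  | 0, l => by simp
  | m + 1, [] => by simp
  | m + 1, a :: l => by
    simp only [List.take_succ_cons, ev_cons]
    have h := dvd_ev_sub_take m l
    have : (a : R) + x * ev x l - ((a : R) + x * ev x (l.take m))
        = x * (ev x l - ev x (l.take m)) := by ring
    rw [this, pow_succ']
    exact mul_dvd_mul_left x h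

lemma dvd_ev_sub_mod (p : ℤ) : ∀ l : List ℤ, (p : R) ∣ ev x l - ev x (l.map (· % p))
  | [] => by simp
  | a :: l => by
    simp only [List.map_cons, ev_cons]
    have h := dvd_ev_sub_mod p l
    have h1 : (p : R) ∣ ((a - a % p : ℤ) : R) := by
      have : (p : ℤ) ∣ a - a % p := Int.dvd_self_sub_emod
      exact_mod_cast (Int.cast_dvd_cast (α := R) _ _ this)
    have : (a : R) + x * ev x l - (((a % p : ℤ) : R) + x * ev x (l.map (· % p)))
        = ((a - a % p : ℤ) : R) + x * (ev x l - ev x (l.map (· % p))) := by push_cast; ring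
    rw [this]
    exact dvd_add h1 (h.mul_left x)

variable {x}

lemma dvd_ev_sub_lred {p : ℤ} {m : ℕ} (hp : x ^ m ∣ (p : R)) (l : List ℤ) :
    x ^ m ∣ ev x l - ev x (lred p m l) := by
  have h1 := dvd_ev_sub_take x m l
  have h2 := hp.trans (dvd_ev_sub_mod x p (l.take m))
  have : ev x l - ev x (lred p m l)
      = (ev x l - ev x (l.take m)) + (ev x (l.take m) - ev x ((l.take m).map (· % p))) := by
    rw [lred]; ring
  rw [this]
  exact dvd_add h1 h2

lemma cong_mul {p : ℤ} {m : ℕ} (hp : x ^ m ∣ (p : R)) {a b : R} {l l' : List ℤ}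
    (ha : x ^ m ∣ a - ev x l) (hb : x ^ m ∣ b - ev x l') :
    x ^ m ∣ a * b - ev x (lred p m (lmul l l')) := by
  have h1 := dvd_ev_sub_lred hp (lmul l l')
  rw [ev_lmul] at h1
  have : a * b - ev x (lred p m (lmul l l'))
      = (a - ev x l) * b + ev x l * (b - ev x l') + (ev x l * ev x l' - ev x (lred p m (lmul l l'))) := by
    ring
  rw [this]
  exact dvd_add (dvd_add (ha.mul_right _) (hb.mul_left _)) h1

lemma cong_pow {p : ℤ} {m : ℕ} (hp : x ^ m ∣ (p : R)) {a : R} {l : List ℤ}
    (ha : x ^ m ∣ a - ev x l) : ∀ n : ℕ, x ^ m ∣ a ^ n - ev x (lpow p m l n)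
  | 0 => by simp [lpow]
  | n + 1 => by
    rw [pow_succ, lpow]
    exact cong_mul hp (cong_pow hp ha n) ha

lemma cong_of_eq {m : ℕ} {a : R} {l : List ℤ} (h : a = ev x l) : x ^ m ∣ a - ev x l := by
  rw [h, sub_self]; exact dvd_zero _

end

end Fermat.Agent.Kummer
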