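import Mathlib
import Fermat.Agent.Kummer.ListPoly

set_option autoImplicit false

/-!
# Explicit cyclotomic units at each even level (generated data, kernel-checked)
-/

namespace Fermat.Agent.Kummer

section

variable {R : Type*} [CommRing R] (z : R)

lemma ev_zeta : z = ev (z - 1) [1, 1] := by simp [ev]

lemma ev_eps2 : ∑ i ∈ Finset.range 2, z ^ i = ev (z - 1) [2, 1] := by
  simp only [Finset.sum_range_succ, Finset.sum_range_zero, ev]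
  push_cast
  ring

lemma ev_eps3 : ∑ i ∈ Finset.range 3, z ^ i = ev (z - 1) [3, 3, 1] := by
  simp only [Finset.sum_range_succ, Finset.sum_range_zero, ev]
  push_cast
  ring

lemma ev_eps4 : ∑ i ∈ Finset.range 4, z ^ i = ev (z - 1) [4, 6, 4, 1] := by
  simp only [Finset.sum_range_succ, Finset.sum_range_zero, ev]
  push_cast
  ring

lemma ev_eps5 : ∑ i ∈ Finset.range 5, z ^ i = ev (z - 1) [5, 10, 10, 5, 1] := by
  simp only [Finset.sum_range_succ, Finset.sum_range_zero, ev]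
  push_cast
  ring

lemma ev_eps6 : ∑ i ∈ Finset.range 6, z ^ i = ev (z - 1) [6, 15, 20, 15, 6, 1] := by
  simp only [Finset.sum_range_succ, Finset.sum_range_zero, ev]
  push_cast
  ring

lemma level_5_2 (hp : (z - 1) ^ 3 ∣ ((5 : ℤ) : R)) :
    (z - 1) ^ 3 ∣ z ^ 2 * ((∑ i ∈ Finset.range 2, z ^ i) ^ 1) - (((2 : ℤ) : R) + ((4 : ℤ) : R) * (z - 1) ^ 2) := by
  have H := (cong_mul hp (cong_pow hp (cong_of_eq (ev_zeta z)) 2) (cong_pow hp (cong_of_eq (ev_eps2 z)) 1))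
  have hL : ∀ L : List ℤ, L = [2, 0, 4] → ev (z - 1) L = (((2 : ℤ) : R) + ((4 : ℤ) : R) * (z - 1) ^ 2) := by
    rintro _ rfl
    simp only [ev]
    push_cast
    ring
  rwa [hL _ (by decide +kernel)] at H

lemma level_7_2 (hp : (z - 1) ^ 3 ∣ ((7 : ℤ) : R)) :
    (z - 1) ^ 3 ∣ z ^ 3 * ((∑ i ∈ Finset.range 2, z ^ i) ^ 1) - (((2 : ℤ) : R) + ((2 : ℤ) : R) * (z - 1) ^ 2) := by
  have H := (cong_mul hp (cong_pow hp (cong_of_eq (ev_zeta z)) 3) (cong_pow hp (cong_of_eq (ev_eps2 z)) 1))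
  have hL : ∀ L : List ℤ, L = [2, 0, 2] → ev (z - 1) L = (((2 : ℤ) : R) + ((2 : ℤ) : R) * (z - 1) ^ 2) := by
    rintro _ rfl
    simp only [ev]
    push_cast
    ring
  rwa [hL _ (by decide +kernel)] at H

lemma level_7_4 (hp : (z - 1) ^ 5 ∣ ((7 : ℤ) : R)) :
    (z - 1) ^ 5 ∣ z ^ 5 * ((∑ i ∈ Finset.range 2, z ^ i) ^ 2 * ((∑ i ∈ Finset.range 3, z ^ i) ^ 1)) - (((5 : ℤ) : R) + ((1 : ℤ) : R) * (z - 1) ^ 4) := by
  have H := (cong_mul hp (cong_pow hp (cong_of_eq (ev_zeta z)) 5) (cong_mul hp (cong_pow hp (cong_of_eq (ev_eps2 z)) 2) (cong_pow hp (cong_of_eq (ev_eps3 z)) 1)))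
  have hL : ∀ L : List ℤ, L = [5, 0, 0, 0, 1] → ev (z - 1) L = (((5 : ℤ) : R) + ((1 : ℤ) : R) * (z - 1) ^ 4) := by
    rintro _ rfl
    simp only [ev]
    push_cast
    ring
  rwa [hL _ (by decide +kernel)] at H

lemma level_11_2 (hp : (z - 1) ^ 3 ∣ ((11 : ℤ) : R)) :
    (z - 1) ^ 3 ∣ (∑ i ∈ Finset.range 4, z ^ i) ^ 1 * ((∑ i ∈ Finset.range 5, z ^ i) ^ 2) - (((1 : ℤ) : R) + ((4 : ℤ) : R) * (z - 1) ^ 2) := by
  have H := (cong_mul hp (cong_pow hp (cong_of_eq (ev_eps4 z)) 1) (cong_pow hp (cong_of_eq (ev_eps5 z)) 2))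
  have hL : ∀ L : List ℤ, L = [1, 0, 4] → ev (z - 1) L = (((1 : ℤ) : R) + ((4 : ℤ) : R) * (z - 1) ^ 2) := by
    rintro _ rfl
    simp only [ev]
    push_cast
    ring
  rwa [hL _ (by decide +kernel)] at H

lemma level_11_4 (hp : (z - 1) ^ 5 ∣ ((11 : ℤ) : R)) :
    (z - 1) ^ 5 ∣ (∑ i ∈ Finset.range 3, z ^ i) ^ 2 * ((∑ i ∈ Finset.range 4, z ^ i) ^ 1 * ((∑ i ∈ Finset.range 5, z ^ i) ^ 1)) - (((4 : ℤ) : R) + ((10 : ℤ) : R) * (z - 1) ^ 4) := by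
  have H := (cong_mul hp (cong_pow hp (cong_of_eq (ev_eps3 z)) 2) (cong_mul hp (cong_pow hp (cong_of_eq (ev_eps4 z)) 1) (cong_pow hp (cong_of_eq (ev_eps5 z)) 1)))
  have hL : ∀ L : List ℤ, L = [4, 0, 0, 0, 10] → ev (z - 1) L = (((4 : ℤ) : R) + ((10 : ℤ) : R) * (z - 1) ^ 4) := by
    rintro _ rfl
    simp only [ev]
    push_cast
    ring
  rwa [hL _ (by decide +kernel)] at H

lemma level_11_6 (hp : (z - 1) ^ 7 ∣ ((11 : ℤ) : R)) :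
    (z - 1) ^ 7 ∣ (∑ i ∈ Finset.range 2, z ^ i) ^ 2 * ((∑ i ∈ Finset.range 3, z ^ i) ^ 4 * ((∑ i ∈ Finset.range 5, z ^ i) ^ 3)) - (((9 : ℤ) : R) + ((10 : ℤ) : R) * (z - 1) ^ 6) := by
  have H := (cong_mul hp (cong_pow hp (cong_of_eq (ev_eps2 z)) 2) (cong_mul hp (cong_pow hp (cong_of_eq (ev_eps3 z)) 4) (cong_pow hp (cong_of_eq (ev_eps5 z)) 3)))
  have hL : ∀ L : List ℤ, L = [9, 0, 0, 0, 0, 0, 10] → ev (z - 1) L = (((9 : ℤ) : R) + ((10 : ℤ) : R) * (z - 1) ^ 6) := by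
    rintro _ rfl
    simp only [ev]
    push_cast
    ring
  rwa [hL _ (by decide +kernel)] at H

lemma level_11_8 (hp : (z - 1) ^ 9 ∣ ((11 : ℤ) : R)) :
    (z - 1) ^ 9 ∣ z ^ 5 * ((∑ i ∈ Finset.range 2, z ^ i) ^ 3 * ((∑ i ∈ Finset.range 3, z ^ i) ^ 4 * ((∑ i ∈ Finset.range 4, z ^ i) ^ 1 * ((∑ i ∈ Finset.range 5, z ^ i) ^ 5)))) - (((7 : ℤ) : R) + ((4 : ℤ) : R) * (z - 1) ^ 8) := by
  have H := (cong_mul hp (cong_pow hp (cong_of_eq (ev_zeta z)) 5) (cong_mul hp (cong_pow hp (cong_of_eq (ev_eps2 z)) 3) (cong_mul hp (cong_pow hp (cong_of_eq (ev_eps3 z)) 4) (cong_mul hp (cong_pow hp (cong_of_eq (ev_eps4 z)) 1) (cong_pow hp (cong_of_eq (ev_eps5 z)) 5)))))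
  have hL : ∀ L : List ℤ, L = [7, 0, 0, 0, 0, 0, 0, 0, 4] → ev (z - 1) L = (((7 : ℤ) : R) + ((4 : ℤ) : R) * (z - 1) ^ 8) := by
    rintro _ rfl
    simp only [ev]
    push_cast
    ring
  rwa [hL _ (by decide +kernel)] at H

lemma level_13_2 (hp : (z - 1) ^ 3 ∣ ((13 : ℤ) : R)) :
    (z - 1) ^ 3 ∣ (∑ i ∈ Finset.range 5, z ^ i) ^ 2 * ((∑ i ∈ Finset.range 6, z ^ i) ^ 1) - (((7 : ℤ) : R) + ((2 : ℤ) : R) * (z - 1) ^ 2) := by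
  have H := (cong_mul hp (cong_pow hp (cong_of_eq (ev_eps5 z)) 2) (cong_pow hp (cong_of_eq (ev_eps6 z)) 1))
  have hL : ∀ L : List ℤ, L = [7, 0, 2] → ev (z - 1) L = (((7 : ℤ) : R) + ((2 : ℤ) : R) * (z - 1) ^ 2) := by
    rintro _ rfl
    simp only [ev]
    push_cast
    ring
  rwa [hL _ (by decide +kernel)] at H

lemma level_13_4 (hp : (z - 1) ^ 5 ∣ ((13 : ℤ) : R)) :
    (z - 1) ^ 5 ∣ z ^ 1 * ((∑ i ∈ Finset.range 4, z ^ i) ^ 2 * ((∑ i ∈ Finset.range 6, z ^ i) ^ 1)) - (((5 : ℤ) : R) + ((7 : ℤ) : R) * (z - 1) ^ 4) := by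
  have H := (cong_mul hp (cong_pow hp (cong_of_eq (ev_zeta z)) 1) (cong_mul hp (cong_pow hp (cong_of_eq (ev_eps4 z)) 2) (cong_pow hp (cong_of_eq (ev_eps6 z)) 1)))
  have hL : ∀ L : List ℤ, L = [5, 0, 0, 0, 7] → ev (z - 1) L = (((5 : ℤ) : R) + ((7 : ℤ) : R) * (z - 1) ^ 4) := by
    rintro _ rfl
    simp only [ev]
    push_cast
    ring
  rwa [hL _ (by decide +kernel)] at H

lemma level_13_6 (hp : (z - 1) ^ 7 ∣ ((13 : ℤ) : R)) :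
    (z - 1) ^ 7 ∣ z ^ 1 * ((∑ i ∈ Finset.range 2, z ^ i) ^ 1 * ((∑ i ∈ Finset.range 5, z ^ i) ^ 2 * ((∑ i ∈ Finset.range 6, z ^ i) ^ 3))) - (((10 : ℤ) : R) + ((3 : ℤ) : R) * (z - 1) ^ 6) := by
  have H := (cong_mul hp (cong_pow hp (cong_of_eq (ev_zeta z)) 1) (cong_mul hp (cong_pow hp (cong_of_eq (ev_eps2 z)) 1) (cong_mul hp (cong_pow hp (cong_of_eq (ev_eps5 z)) 2) (cong_pow hp (cong_of_eq (ev_eps6 z)) 3))))
  have hL : ∀ L : List ℤ, L = [10, 0, 0, 0, 0, 0, 3] → ev (z - 1) L = (((10 : ℤ) : R) + ((3 : ℤ) : R) * (z - 1) ^ 6) := by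
    rintro _ rfl
    simp only [ev]
    push_cast
    ring
  rwa [hL _ (by decide +kernel)] at H

lemma level_13_8 (hp : (z - 1) ^ 9 ∣ ((13 : ℤ) : R)) :
    (z - 1) ^ 9 ∣ z ^ 3 * ((∑ i ∈ Finset.range 2, z ^ i) ^ 6 * ((∑ i ∈ Finset.range 3, z ^ i) ^ 1 * ((∑ i ∈ Finset.range 4, z ^ i) ^ 1 * ((∑ i ∈ Finset.range 6, z ^ i) ^ 7)))) - (((7 : ℤ) : R) + ((1 : ℤ) : R) * (z - 1) ^ 8) := by
  have H := (cong_mul hp (cong_pow hp (cong_of_eq (ev_zeta z)) 3) (cong_mul hp (cong_pow hp (cong_of_eq (ev_eps2 z)) 6) (cong_mul hp (cong_pow hp (cong_of_eq (ev_eps3 z)) 1) (cong_mul hp (cong_pow hp (cong_of_eq (ev_eps4 z)) 1) (cong_pow hp (cong_of_eq (ev_eps6 z)) 7)))))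
  have hL : ∀ L : List ℤ, L = [7, 0, 0, 0, 0, 0, 0, 0, 1] → ev (z - 1) L = (((7 : ℤ) : R) + ((1 : ℤ) : R) * (z - 1) ^ 8) := by
    rintro _ rfl
    simp only [ev]
    push_cast
    ring
  rwa [hL _ (by decide +kernel)] at H

lemma level_13_10 (hp : (z - 1) ^ 11 ∣ ((13 : ℤ) : R)) :
    (z - 1) ^ 11 ∣ z ^ 6 * ((∑ i ∈ Finset.range 2, z ^ i) ^ 9 * ((∑ i ∈ Finset.range 3, z ^ i) ^ 4 * ((∑ i ∈ Finset.range 4, z ^ i) ^ 10 * ((∑ i ∈ Finset.range 5, z ^ i) ^ 1 * ((∑ i ∈ Finset.range 6, z ^ i) ^ 3))))) - (((5 : ℤ) : R) + ((4 : ℤ) : R) * (z - 1) ^ 10) := by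
  have H := (cong_mul hp (cong_pow hp (cong_of_eq (ev_zeta z)) 6) (cong_mul hp (cong_pow hp (cong_of_eq (ev_eps2 z)) 9) (cong_mul hp (cong_pow hp (cong_of_eq (ev_eps3 z)) 4) (cong_mul hp (cong_pow hp (cong_of_eq (ev_eps4 z)) 10) (cong_mul hp (cong_pow hp (cong_of_eq (ev_eps5 z)) 1) (cong_pow hp (cong_of_eq (ev_eps6 z)) 3))))))
  have hL : ∀ L : List ℤ, L = [5, 0, 0, 0, 0, 0, 0, 0, 0, 0, 4] → ev (z - 1) L = (((5 : ℤ) : R) + ((4 : ℤ) : R) * (z - 1) ^ 10) := by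
    rintro _ rfl
    simp only [ev]
    push_cast
    ring
  rwa [hL _ (by decide +kernel)] at H

end

end Fermat.Agent.Kummer
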