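import Mathlib
import Fermat.Agent.Kummer.IntMod
import Fermat.Agent.Kummer.UnitData

set_option autoImplicit false
set_option linter.unusedSectionVars false
set_option linter.style.haveILetI false

/-!
# Kummer's lemma for `p = 5, 7, 11, 13`

A unit of `ℤ[ζ_p]` congruent to a `p`-th power modulo `(ζ - 1) ^ p` is a `p`-th power.
The proof uses Dirichlet's unit theorem (the unit group has `(p - 1) / 2` generators) and explicit
cyclotomic units at the levels `1, 2, 4, …, p - 3` of the filtration "congruent to a rational integer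
modulo `(ζ - 1) ^ i`".
-/

open NumberField

namespace Fermat.Agent.Kummer

section

variable {p : ℕ} [hp : Fact p.Prime] (K : Type*) [Field K] [NumberField K]
  [IsCyclotomicExtension {p} ℚ K] {ζ : K} (hζ : IsPrimitiveRoot ζ p)

lemma jump_of_isUnit {j : ℕ} {x : 𝓞 K} (hx : IsUnit x) (a c : ℤ) (hc : ¬ (p : ℤ) ∣ c)
    (h : (hζ.toInteger - 1) ^ (j + 1) ∣ x - ((a : 𝓞 K) + (c : 𝓞 K) * (hζ.toInteger - 1) ^ j)) :
    ∃ (θ : (𝓞 K)ˣ) (a c : ℤ), ¬ (p : ℤ) ∣ c ∧
      (hζ.toInteger - 1) ^ (j + 1) ∣ (θ : 𝓞 K) - ((a : 𝓞 K) + c * (hζ.toInteger - 1) ^ j) :=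
  ⟨hx.unit, a, c, hc, by simpa using h⟩

lemma pow_dvd_prime {m : ℕ} (hm : m ≤ p - 1) : (hζ.toInteger - 1) ^ m ∣ (((p : ℕ) : ℤ) : 𝓞 K) := by
  have := (IsCyclotomicExtension.Rat.associated_zeta_sub_one_pow_prime p hζ).dvd
  exact_mod_cast (pow_dvd_pow _ hm).trans this

lemma isUnit_zeta : IsUnit hζ.toInteger :=
  hζ.toInteger_isPrimitiveRoot.isUnit hp.out.ne_zero

lemma isUnit_eps {a : ℕ} (ha : a.Coprime p) : IsUnit (∑ i ∈ Finset.range a, hζ.toInteger ^ i) :=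
  hζ.toInteger_isPrimitiveRoot.geom_sum_isUnit hp.out.two_le ha

lemma jump_one (hp3 : 3 ≤ p) : ∃ (θ : (𝓞 K)ˣ) (a c : ℤ), ¬ (p : ℤ) ∣ c ∧
      (hζ.toInteger - 1) ^ (1 + 1) ∣ (θ : 𝓞 K) - ((a : 𝓞 K) + c * (hζ.toInteger - 1) ^ 1) := by
  refine jump_of_isUnit K hζ (isUnit_zeta K hζ) 1 1 ?_ ?_
  · intro h
    have := Int.le_of_dvd one_pos h
    omega
  · have : hζ.toInteger - (((1 : ℤ) : 𝓞 K) + ((1 : ℤ) : 𝓞 K) * (hζ.toInteger - 1) ^ 1) = 0 := by
      push_cast; ring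
    rw [this]
    exact dvd_zero _

end

theorem kummer_five (K : Type*) [Field K] [NumberField K] [IsCyclotomicExtension {5} ℚ K]
    {ζ : K} (hζ : IsPrimitiveRoot ζ 5) (u : (𝓞 K)ˣ)
    (hu : IntMod (hζ.toInteger - 1) (5 - 1) (u : 𝓞 K)) : ∃ v : (𝓞 K)ˣ, u = v ^ 5 := by
  haveI : Fact (Nat.Prime 5) := ⟨by norm_num⟩
  refine kummer_of_jumps K hζ (by norm_num) {1, 2} (by decide) ?_ u hu
  intro j hj
  simp only [Finset.mem_insert, Finset.mem_singleton] at hj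
  rcases hj with rfl | rfl
  · exact ⟨by norm_num, by norm_num, jump_one K hζ (by norm_num)⟩
  · exact ⟨by norm_num, by norm_num, jump_of_isUnit K hζ (((isUnit_zeta K hζ).pow 2).mul ((isUnit_eps K hζ (by norm_num : Nat.Coprime 2 5)).pow 1)) 2 4 (by norm_num)
      (level_5_2 hζ.toInteger (pow_dvd_prime K hζ (by norm_num)))⟩

theorem kummer_seven (K : Type*) [Field K] [NumberField K] [IsCyclotomicExtension {7} ℚ K]
    {ζ : K} (hζ : IsPrimitiveRoot ζ 7) (u : (𝓞 K)ˣ)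
    (hu : IntMod (hζ.toInteger - 1) (7 - 1) (u : 𝓞 K)) : ∃ v : (𝓞 K)ˣ, u = v ^ 7 := by
  haveI : Fact (Nat.Prime 7) := ⟨by norm_num⟩
  refine kummer_of_jumps K hζ (by norm_num) {1, 2, 4} (by decide) ?_ u hu
  intro j hj
  simp only [Finset.mem_insert, Finset.mem_singleton] at hj
  rcases hj with rfl | rfl | rfl
  · exact ⟨by norm_num, by norm_num, jump_one K hζ (by norm_num)⟩
  · exact ⟨by norm_num, by norm_num, jump_of_isUnit K hζ (((isUnit_zeta K hζ).pow 3).mul ((isUnit_eps K hζ (by norm_num : Nat.Coprime 2 7)).pow 1)) 2 2 (by norm_num)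
      (level_7_2 hζ.toInteger (pow_dvd_prime K hζ (by norm_num)))⟩
  · exact ⟨by norm_num, by norm_num, jump_of_isUnit K hζ (((isUnit_zeta K hζ).pow 5).mul (((isUnit_eps K hζ (by norm_num : Nat.Coprime 2 7)).pow 2).mul ((isUnit_eps K hζ (by norm_num : Nat.Coprime 3 7)).pow 1))) 5 1 (by norm_num)
      (level_7_4 hζ.toInteger (pow_dvd_prime K hζ (by norm_num)))⟩

theorem kummer_eleven (K : Type*) [Field K] [NumberField K] [IsCyclotomicExtension {11} ℚ K]
    {ζ : K} (hζ : IsPrimitiveRoot ζ 11) (u : (𝓞 K)ˣ)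
    (hu : IntMod (hζ.toInteger - 1) (11 - 1) (u : 𝓞 K)) : ∃ v : (𝓞 K)ˣ, u = v ^ 11 := by
  haveI : Fact (Nat.Prime 11) := ⟨by norm_num⟩
  refine kummer_of_jumps K hζ (by norm_num) {1, 2, 4, 6, 8} (by decide) ?_ u hu
  intro j hj
  simp only [Finset.mem_insert, Finset.mem_singleton] at hj
  rcases hj with rfl | rfl | rfl | rfl | rfl
  · exact ⟨by norm_num, by norm_num, jump_one K hζ (by norm_num)⟩
  · exact ⟨by norm_num, by norm_num, jump_of_isUnit K hζ (((isUnit_eps K hζ (by norm_num : Nat.Coprime 4 11)).pow 1).mul ((isUnit_eps K hζ (by norm_num : Nat.Coprime 5 11)).pow 2)) 1 4 (by norm_num)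
      (level_11_2 hζ.toInteger (pow_dvd_prime K hζ (by norm_num)))⟩
  · exact ⟨by norm_num, by norm_num, jump_of_isUnit K hζ (((isUnit_eps K hζ (by norm_num : Nat.Coprime 3 11)).pow 2).mul (((isUnit_eps K hζ (by norm_num : Nat.Coprime 4 11)).pow 1).mul ((isUnit_eps K hζ (by norm_num : Nat.Coprime 5 11)).pow 1))) 4 10 (by norm_num)
      (level_11_4 hζ.toInteger (pow_dvd_prime K hζ (by norm_num)))⟩
  · exact ⟨by norm_num, by norm_num, jump_of_isUnit K hζ (((isUnit_eps K hζ (by norm_num : Nat.Coprime 2 11)).pow 2).mul (((isUnit_eps K hζ (by norm_num : Nat.Coprime 3 11)).pow 4).mul ((isUnit_eps K hζ (by norm_num : Nat.Coprime 5 11)).pow 3))) 9 10 (by norm_num)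
      (level_11_6 hζ.toInteger (pow_dvd_prime K hζ (by norm_num)))⟩
  · exact ⟨by norm_num, by norm_num, jump_of_isUnit K hζ (((isUnit_zeta K hζ).pow 5).mul (((isUnit_eps K hζ (by norm_num : Nat.Coprime 2 11)).pow 3).mul (((isUnit_eps K hζ (by norm_num : Nat.Coprime 3 11)).pow 4).mul (((isUnit_eps K hζ (by norm_num : Nat.Coprime 4 11)).pow 1).mul ((isUnit_eps K hζ (by norm_num : Nat.Coprime 5 11)).pow 5))))) 7 4 (by norm_num)
      (level_11_8 hζ.toInteger (pow_dvd_prime K hζ (by norm_num)))⟩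

theorem kummer_thirteen (K : Type*) [Field K] [NumberField K] [IsCyclotomicExtension {13} ℚ K]
    {ζ : K} (hζ : IsPrimitiveRoot ζ 13) (u : (𝓞 K)ˣ)
    (hu : IntMod (hζ.toInteger - 1) (13 - 1) (u : 𝓞 K)) : ∃ v : (𝓞 K)ˣ, u = v ^ 13 := by
  haveI : Fact (Nat.Prime 13) := ⟨by norm_num⟩
  refine kummer_of_jumps K hζ (by norm_num) {1, 2, 4, 6, 8, 10} (by decide) ?_ u hu
  intro j hj
  simp only [Finset.mem_insert, Finset.mem_singleton] at hj
  rcases hj with rfl | rfl | rfl | rfl | rfl | rfl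
  · exact ⟨by norm_num, by norm_num, jump_one K hζ (by norm_num)⟩
  · exact ⟨by norm_num, by norm_num, jump_of_isUnit K hζ (((isUnit_eps K hζ (by norm_num : Nat.Coprime 5 13)).pow 2).mul ((isUnit_eps K hζ (by norm_num : Nat.Coprime 6 13)).pow 1)) 7 2 (by norm_num)
      (level_13_2 hζ.toInteger (pow_dvd_prime K hζ (by norm_num)))⟩
  · exact ⟨by norm_num, by norm_num, jump_of_isUnit K hζ (((isUnit_zeta K hζ).pow 1).mul (((isUnit_eps K hζ (by norm_num : Nat.Coprime 4 13)).pow 2).mul ((isUnit_eps K hζ (by norm_num : Nat.Coprime 6 13)).pow 1))) 5 7 (by norm_num)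
      (level_13_4 hζ.toInteger (pow_dvd_prime K hζ (by norm_num)))⟩
  · exact ⟨by norm_num, by norm_num, jump_of_isUnit K hζ (((isUnit_zeta K hζ).pow 1).mul (((isUnit_eps K hζ (by norm_num : Nat.Coprime 2 13)).pow 1).mul (((isUnit_eps K hζ (by norm_num : Nat.Coprime 5 13)).pow 2).mul ((isUnit_eps K hζ (by norm_num : Nat.Coprime 6 13)).pow 3)))) 10 3 (by norm_num)
      (level_13_6 hζ.toInteger (pow_dvd_prime K hζ (by norm_num)))⟩
  · exact ⟨by norm_num, by norm_num, jump_of_isUnit K hζ (((isUnit_zeta K hζ).pow 3).mul (((isUnit_eps K hζ (by norm_num : Nat.Coprime 2 13)).pow 6).mul (((isUnit_eps K hζ (by norm_num : Nat.Coprime 3 13)).pow 1).mul (((isUnit_eps K hζ (by norm_num : Nat.Coprime 4 13)).pow 1).mul ((isUnit_eps K hζ (by norm_num : Nat.Coprime 6 13)).pow 7))))) 7 1 (by norm_num)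
      (level_13_8 hζ.toInteger (pow_dvd_prime K hζ (by norm_num)))⟩
  · exact ⟨by norm_num, by norm_num, jump_of_isUnit K hζ (((isUnit_zeta K hζ).pow 6).mul (((isUnit_eps K hζ (by norm_num : Nat.Coprime 2 13)).pow 9).mul (((isUnit_eps K hζ (by norm_num : Nat.Coprime 3 13)).pow 4).mul (((isUnit_eps K hζ (by norm_num : Nat.Coprime 4 13)).pow 10).mul (((isUnit_eps K hζ (by norm_num : Nat.Coprime 5 13)).pow 1).mul ((isUnit_eps K hζ (by norm_num : Nat.Coprime 6 13)).pow 3)))))) 5 4 (by norm_num)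
      (level_13_10 hζ.toInteger (pow_dvd_prime K hζ (by norm_num)))⟩

/-- **Kummer's lemma** for `p = 5, 7, 11, 13`. -/
theorem kummer_lemma_small {p : ℕ} [hp : Fact p.Prime] (hp' : p = 5 ∨ p = 7 ∨ p = 11 ∨ p = 13)
    (K : Type*) [Field K] [NumberField K] [IsCyclotomicExtension {p} ℚ K]
    {ζ : K} (hζ : IsPrimitiveRoot ζ p)
    (u : (𝓞 K)ˣ) (x : 𝓞 K) (h : (hζ.toInteger - 1) ^ p ∣ (u : 𝓞 K) - x ^ p) :
    ∃ v : (𝓞 K)ˣ, u = v ^ p := by
  have hlp : (hζ.toInteger - 1) ^ (p - 1) ∣ (p : 𝓞 K) :=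
    (IsCyclotomicExtension.Rat.associated_zeta_sub_one_pow_prime p hζ).dvd
  have hu : IntMod (hζ.toInteger - 1) (p - 1) (u : 𝓞 K) := by
    obtain ⟨n, hn⟩ := IntMod.pow_prime hp.out hlp (intMod_one_all K hζ x)
    refine IntMod.mono (Nat.sub_le p 1) ⟨n, ?_⟩
    have : (u : 𝓞 K) - (n : 𝓞 K) = ((u : 𝓞 K) - x ^ p) + (x ^ p - n) := by ring
    rw [this]
    exact dvd_add h hn
  rcases hp' with rfl | rfl | rfl | rfl
  · exact kummer_five K hζ u hu
  · exact kummer_seven K hζ u hu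
  · exact kummer_eleven K hζ u hu
  · exact kummer_thirteen K hζ u hu

end Fermat.Agent.Kummer
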