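/-
Kummer project: FLT for p = 5, 7, 11, 13 (coprime form), glue.
-/
import Mathlib
import Fermat.Agent.Kummer.CaseI
import Fermat.Agent.Kummer.CaseII
import Fermat.Agent.Kummer.KummerSmall

set_option autoImplicit false

open NumberField

namespace Fermat.Agent.Kummer

theorem caseII_small {p : ℕ} (hp : p = 5 ∨ p = 7 ∨ p = 11 ∨ p = 13)
    (hpid : IsPrincipalIdealRing (𝓞 (CyclotomicField p ℚ))) {a b c : ℤ}
    (hab : IsCoprime a b) (hc0 : c ≠ 0) (hc : (p : ℤ) ∣ c) : a ^ p + b ^ p ≠ c ^ p := by
  have hpp : p.Prime := by rcases hp with rfl | rfl | rfl | rfl <;> norm_num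
  have hp2 : p ≠ 2 := by rcases hp with rfl | rfl | rfl | rfl <;> norm_num
  have : Fact p.Prime := ⟨hpp⟩
  have : NeZero p := ⟨hpp.ne_zero⟩
  have : IsCyclotomicExtension {p} ℚ (CyclotomicField p ℚ) :=
    CyclotomicField.isCyclotomicExtension p ℚ
  have hζ := IsCyclotomicExtension.zeta_spec p ℚ (CyclotomicField p ℚ)
  exact caseII hp2 (CyclotomicField p ℚ) hζ
    (fun u x h => kummer_lemma_small hp (CyclotomicField p ℚ) hζ u x h) hab hc0 hc

theorem flt_small {p : ℕ} (hp : p = 5 ∨ p = 7 ∨ p = 11 ∨ p = 13)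
    (hpid : IsPrincipalIdealRing (𝓞 (CyclotomicField p ℚ))) {a b c : ℤ} (ha : a ≠ 0) (hb : b ≠ 0)
    (hc : c ≠ 0) (hab : IsCoprime a b) : a ^ p + b ^ p ≠ c ^ p := by
  have hpp : p.Prime := by rcases hp with rfl | rfl | rfl | rfl <;> norm_num
  have hodd : Odd p := by rcases hp with rfl | rfl | rfl | rfl <;> decide
  have hp0 : p ≠ 0 := hpp.ne_zero
  intro H
  by_cases h : (p : ℤ) ∣ a * b * c
  · have hpZ : Prime (p : ℤ) := Nat.prime_iff_prime_int.mp hpp
    -- coprimality of the other pairs
    have hca : IsCoprime c a := by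
      have : IsCoprime (c ^ p) a := by
        rw [← H]
        have h1 : IsCoprime (b ^ p) a := (hab.symm).pow_left
        have : a ^ p + b ^ p = b ^ p + a * a ^ (p - 1) := by
          rw [← pow_succ', Nat.sub_add_cancel hpp.one_le]; ring
        rw [this]
        exact h1.add_mul_left_left _
      exact (IsCoprime.pow_left_iff (Nat.pos_of_ne_zero hp0)).mp this
    have hcb : IsCoprime c b := by
      have : IsCoprime (c ^ p) b := by
        rw [← H]
        have h1 : IsCoprime (a ^ p) b := hab.pow_left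
        have : a ^ p + b ^ p = a ^ p + b * b ^ (p - 1) := by
          rw [← pow_succ', Nat.sub_add_cancel hpp.one_le]
        rw [this]
        exact h1.add_mul_left_left _
      exact (IsCoprime.pow_left_iff (Nat.pos_of_ne_zero hp0)).mp this
    rcases (hpZ.dvd_or_dvd h) with h' | h'
    · rcases (hpZ.dvd_or_dvd h') with h'' | h''
      · -- p ∣ a : c^p + (-b)^p = a^p
        refine caseII_small hp hpid (a := c) (b := -b) (c := a) hcb.neg_right ha h'' ?_
        rw [hodd.neg_pow]; linarith
      · refine caseII_small hp hpid (a := c) (b := -a) (c := b) hca.neg_right hb h'' ?_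
        rw [hodd.neg_pow]; linarith
    · exact caseII_small hp hpid hab hc h' H
  · exact caseI hp hab h H

end Fermat.Agent.Kummer
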