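import Mathlib
import Fermat.Agent.Kummer.ListPoly

set_option autoImplicit false
set_option linter.unusedSectionVars false
set_option linter.style.haveILetI false

/-!
# Tools to prove that `ℤ[ζ_p]` is a PID

* cyclic list arithmetic computing `∏_{k=1}^{p-1} g(ζ^k)`;
* `natAbs_norm_eq`: the norm of `g(ζ)` from that product;
* `exists_principal_primesOver`: an element of norm `q ^ f` gives a principal prime over `q`;
* `exists_primesOver_lt`: primes `q` all of whose prime divisors have large norm.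
-/

open NumberField

namespace Fermat.Agent.Kummer

section Lists

/-- Coefficient list of `G(X^k)`. -/
def lstretch (k : ℕ) : List ℤ → List ℤ
  | [] => []
  | a :: l => a :: (List.replicate (k - 1) 0 ++ lstretch k l)

/-- Fold a coefficient list modulo `X^n - 1` (with fuel). -/
def lcyc (n : ℕ) : ℕ → List ℤ → List ℤ
  | 0, l => l
  | f + 1, l => ladd (l.take n) (lcyc n f (l.drop n))

/-- Coefficient list (modulo `X^n - 1`) of `∏_{j < k} G(X^(j+1))`. -/
def normList (n : ℕ) (G : List ℤ) : ℕ → List ℤ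
  | 0 => [1]
  | k + 1 => lcyc n (n + 2) (lmul (normList n G k) (lcyc n (n + 2) (lstretch (k + 1) G)))

variable {R : Type*} [CommRing R] (x : R)

lemma ev_replicate_zero_append (n : ℕ) (l : List ℤ) :
    ev x (List.replicate n 0 ++ l) = x ^ n * ev x l := by
  induction n with
  | zero => simp
  | succ n ih =>
    rw [List.replicate_succ, List.cons_append, ev_cons, ih, pow_succ']
    push_cast
    ring

lemma ev_lstretch {k : ℕ} (hk : 0 < k) : ∀ l : List ℤ, ev x (lstretch k l) = ev (x ^ k) l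
  | [] => rfl
  | a :: l => by
    rw [lstretch, ev_cons, ev_replicate_zero_append, ev_lstretch hk l, ev_cons, ← mul_assoc,
      ← pow_succ', Nat.sub_add_cancel hk]

lemma ev_take_add_drop : ∀ (n : ℕ) (l : List ℤ), ev x l = ev x (l.take n) + x ^ n * ev x (l.drop n)
  | 0, l => by simp
  | n + 1, [] => by simp
  | n + 1, a :: l => by
    rw [List.take_succ_cons, List.drop_succ_cons, ev_cons, ev_cons, ev_take_add_drop n l, pow_succ']
    ring

variable {x}

lemma ev_lcyc {n : ℕ} (hx : x ^ n = 1) : ∀ (f : ℕ) (l : List ℤ), ev x (lcyc n f l) = ev x l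
  | 0, l => rfl
  | f + 1, l => by
    rw [lcyc, ev_ladd, ev_lcyc hx f, ev_take_add_drop x n l, hx, one_mul]

lemma ev_normList {n : ℕ} (hx : x ^ n = 1) (G : List ℤ) :
    ∀ k : ℕ, ev x (normList n G k) = ∏ j ∈ Finset.range k, ev (x ^ (j + 1)) G
  | 0 => by simp [normList]
  | k + 1 => by
    rw [normList, ev_lcyc hx, ev_lmul, ev_lcyc hx, ev_lstretch x (Nat.succ_pos k), ev_normList hx G k,
      Finset.prod_range_succ]

lemma ev_replicate (c : ℤ) (n : ℕ) :
    ev x (List.replicate n c) = (c : R) * ∑ i ∈ Finset.range n, x ^ i := by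
  induction n with
  | zero => simp
  | succ n ih =>
    rw [List.replicate_succ, ev_cons, ih, Finset.sum_range_succ', Finset.mul_sum, Finset.mul_sum,
      mul_add, Finset.mul_sum]
    simp only [pow_succ, pow_zero, mul_one]
    rw [add_comm]
    congr 1
    apply Finset.sum_congr rfl
    intro i _
    ring

/-- The product of the conjugates, from a kernel computation. -/
lemma prod_ev_eq {n : ℕ} (hx : x ^ n = 1) (hs : ∑ i ∈ Finset.range n, x ^ i = 0) (G : List ℤ)
    (N c : ℤ) (h : normList n G (n - 1) = ladd [N] (List.replicate n c)) :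
    ∏ j ∈ Finset.range (n - 1), ev (x ^ (j + 1)) G = (N : R) := by
  rw [← ev_normList hx, h, ev_ladd, ev_replicate, hs]
  simp

lemma map_ev {S : Type*} [CommRing S] (f : R →+* S) (y : R) :
    ∀ l : List ℤ, f (ev y l) = ev (f y) l
  | [] => by simp
  | a :: l => by simp [map_ev f y l]

end Lists

section Norm

variable {p : ℕ} [hp : Fact p.Prime] (K : Type*) [Field K] [NumberField K]
  [IsCyclotomicExtension {p} ℚ K] {ζ : K} (hζ : IsPrimitiveRoot ζ p)

include hζ in
lemma exists_gal_pow {k : ℕ} (hk0 : 0 < k) (hk : k < p) : ∃ σ : K ≃ₐ[ℚ] K, σ ζ = ζ ^ k := by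
  have hcop : k.Coprime p := (Nat.coprime_of_lt_prime hk0.ne' hk hp.out).symm
  refine ⟨(IsCyclotomicExtension.Rat.galEquivZMod p K).symm (ZMod.unitOfCoprime k hcop), ?_⟩
  rw [IsCyclotomicExtension.Rat.galEquivZMod_apply_of_pow_eq p K _ hζ.pow_eq_one,
    MulEquiv.apply_symm_apply, ZMod.coe_unitOfCoprime, ZMod.val_natCast, Nat.mod_eq_of_lt hk]

theorem natAbs_norm_eq (G : List ℤ) (N : ℤ)
    (h : ∏ j ∈ Finset.range (p - 1), ev (hζ.toInteger ^ (j + 1)) G = (N : 𝓞 K)) :
    (Algebra.norm ℤ (ev hζ.toInteger G)).natAbs = N.natAbs := by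
  have hK : ∏ j ∈ Finset.range (p - 1), ev (ζ ^ (j + 1)) G = (N : K) := by
    have h1 := congrArg (algebraMap (𝓞 K) K) h
    rw [map_prod] at h1
    simp only [map_ev, map_pow, map_intCast] at h1
    exact h1
  have hnorm : ∀ j ∈ Finset.range (p - 1),
      Algebra.norm ℚ (ev (ζ ^ (j + 1)) G) = Algebra.norm ℚ (ev ζ G) := by
    intro j hj
    rw [Finset.mem_range] at hj
    obtain ⟨σ, hσ⟩ := exists_gal_pow K hζ (Nat.succ_pos j) (by omega : j + 1 < p)
    rw [← hσ, ← Algebra.norm_eq_of_algEquiv σ (ev ζ G)]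
    congr 1
    exact (map_ev (σ : K →+* K) ζ G).symm
  have h2 : Algebra.norm ℚ (ev ζ G) ^ (p - 1) = (N : ℚ) ^ (p - 1) := by
    have h3 := congrArg (Algebra.norm ℚ) hK
    rw [map_prod, Finset.prod_congr rfl hnorm, Finset.prod_const, Finset.card_range] at h3
    rw [h3]
    have h4 : (N : K) = algebraMap ℚ K (N : ℚ) := by simp
    rw [h4, Algebra.norm_algebraMap, IsCyclotomicExtension.Rat.finrank p K, Nat.totient_prime hp.out]
  have h5 : ((Algebra.norm ℤ (ev hζ.toInteger G) : ℤ) : ℚ) = Algebra.norm ℚ (ev ζ G) := by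
    rw [Algebra.coe_norm_int]
    congr 1
    exact map_ev (algebraMap (𝓞 K) K) hζ.toInteger G
  rw [← h5] at h2
  have h6 : (Algebra.norm ℤ (ev hζ.toInteger G)) ^ (p - 1) = N ^ (p - 1) := by exact_mod_cast h2
  have h7 := congrArg Int.natAbs h6
  rw [Int.natAbs_pow, Int.natAbs_pow] at h7
  exact Nat.pow_left_injective (by have := hp.out.two_le; omega : p - 1 ≠ 0) h7

end Norm

section Primes

open Ideal

variable {p : ℕ} [hp : Fact p.Prime] (K : Type*) [Field K] [NumberField K]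
  [IsCyclotomicExtension {p} ℚ K]

/-- An element of norm `± q ^ f`, `f` the order of `q` modulo `p`, generates a prime over `q`. -/
theorem exists_principal_primesOver {q : ℕ} [hq : Fact q.Prime] (hqp : q ≠ p) (α : 𝓞 K)
    (hα : (Algebra.norm ℤ α).natAbs = q ^ orderOf (q : ZMod p)) :
    ∃ P ∈ primesOver (span {(q : ℤ)}) (𝓞 K), Submodule.IsPrincipal P := by
  have hndvd : ¬ q ∣ p := fun h => hqp ((Nat.prime_dvd_prime_iff_eq hq.out hp.out).1 h)
  have hqZ : Prime (q : ℤ) := Nat.prime_iff_prime_int.1 hq.out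
  haveI hmaxq : (span {(q : ℤ)}).IsMaximal :=
    (span_singleton_prime hqZ.ne_zero).2 hqZ |>.isMaximal (by simpa using hqZ.ne_zero)
  have hI : absNorm (span {α}) = q ^ orderOf (q : ZMod p) := by
    rw [absNorm_span_singleton, hα]
  -- the order is positive
  have hf : 0 < orderOf (q : ZMod p) := by
    obtain ⟨⟨P0, hP0, hP0'⟩⟩ := (span {(q : ℤ)}).nonempty_primesOver (S := 𝓞 K)
    rw [← IsCyclotomicExtension.Rat.inertiaDeg_eq_of_not_dvd q K P0 hndvd]
    exact inertiaDeg_pos P0 ℤ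
  have hne : span {α} ≠ ⊤ := by
    intro h
    rw [h, absNorm_top] at hI
    exact (Nat.one_lt_pow hf.ne' hq.out.one_lt).ne hI
  obtain ⟨P, hPmax, hPle⟩ := exists_le_maximal _ hne
  haveI := hPmax.isPrime
  have hqP : (q : 𝓞 K) ∈ P := by
    have h1 : ((absNorm (span {α}) : ℕ) : 𝓞 K) ∈ P := hPle (absNorm_mem _)
    rw [hI] at h1
    push_cast at h1
    exact hPmax.isPrime.mem_of_pow_mem _ h1
  haveI hlies : P.LiesOver (span {(q : ℤ)}) := by
    constructor
    apply hmaxq.eq_of_le (IsPrime.under ℤ P).ne_top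
    rw [span_singleton_le_iff_mem, mem_comap]
    simpa using hqP
  refine ⟨P, ⟨hPmax.isPrime, hlies⟩, ?_⟩
  have hPn : absNorm P = q ^ orderOf (q : ZMod p) := by
    rw [← pow_inertiaDeg q P, IsCyclotomicExtension.Rat.inertiaDeg_eq_of_not_dvd q K P hndvd]
  obtain ⟨J, hJ⟩ := dvd_iff_le.2 hPle
  have h2 := congrArg absNorm hJ
  rw [map_mul, hI, hPn] at h2
  have h3 : absNorm J = 1 := by
    have hpos : 0 < q ^ orderOf (q : ZMod p) := pow_pos hq.out.pos _
    exact (Nat.eq_of_mul_eq_mul_left hpos (by rw [mul_one]; exact h2)).symm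
  rw [absNorm_eq_one_iff] at h3
  rw [h3, mul_top] at hJ
  rw [← hJ]
  exact ⟨α, rfl⟩

/-- If no small power of `q` is `≡ 1 mod p`, the primes over `q` have norm `> B`. -/
theorem exists_primesOver_lt {q B : ℕ} [hq : Fact q.Prime] (hqp : q ≠ p)
    (hchk : ∀ i : ℕ, 0 < i → q ^ i ≤ B → q ^ i % p ≠ 1) :
    ∃ P ∈ primesOver (span {(q : ℤ)}) (𝓞 K), B < q ^ P.inertiaDeg ℤ := by
  have hndvd : ¬ q ∣ p := fun h => hqp ((Nat.prime_dvd_prime_iff_eq hq.out hp.out).1 h)
  have hqZ : Prime (q : ℤ) := Nat.prime_iff_prime_int.1 hq.out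
  haveI hmaxq : (span {(q : ℤ)}).IsMaximal :=
    (span_singleton_prime hqZ.ne_zero).2 hqZ |>.isMaximal (by simpa using hqZ.ne_zero)
  obtain ⟨⟨P, hP, hP'⟩⟩ := (span {(q : ℤ)}).nonempty_primesOver (S := 𝓞 K)
  refine ⟨P, ⟨hP, hP'⟩, ?_⟩
  by_contra hcon
  rw [not_lt] at hcon
  have hpos : 0 < P.inertiaDeg ℤ := inertiaDeg_pos P ℤ
  apply hchk _ hpos hcon
  have h1 : (q : ZMod p) ^ P.inertiaDeg ℤ = 1 := by
    rw [IsCyclotomicExtension.Rat.inertiaDeg_eq_of_not_dvd q K P hndvd]
    exact pow_orderOf_eq_one _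
  have h2 : ((q ^ P.inertiaDeg ℤ : ℕ) : ZMod p) = ((1 : ℕ) : ZMod p) := by
    push_cast
    exact h1
  rw [ZMod.natCast_eq_natCast_iff'] at h2
  rw [h2]
  exact Nat.mod_eq_of_lt hp.out.one_lt

end Primes

end Fermat.Agent.Kummer
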