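/-
Kummer project, module A: `ℤ[ζ_11]` is a PID.
Minkowski bound `58.98`; the primes `q ≤ 58` having a prime divisor of norm `≤ 58` are
`q = 11` (ramified, `(ζ - 1)`) and `q = 23` (split, generator `1 + ζ + ζ^3`).
-/
import Mathlib
import Fermat.Agent.Kummer.PIDTools

set_option autoImplicit false
set_option linter.style.haveILetI false

open NumberField Ideal Real Nat

namespace Fermat.Agent.Kummer

lemma check11 : ∀ q ∈ Finset.Icc 1 58, (∀ d ∈ Finset.Icc 2 7, d ∣ q → d = q) →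
    q = 1 ∨ q = 11 ∨ q = 23 ∨ ∀ i ∈ Finset.Icc 1 5, q ^ i ≤ 58 → q ^ i % 11 ≠ 1 := by
  decide +kernel

lemma minkowski11 (K : Type) [Field K] [NumberField K] [IsCyclotomicExtension {11} ℚ K] :
    ⌊(4 / π) ^ InfinitePlace.nrComplexPlaces K *
      ((Module.finrank ℚ K)! / (Module.finrank ℚ K) ^ (Module.finrank ℚ K) * √|discr K|)⌋₊ ≤ 58 := by
  haveI : Fact (Nat.Prime 11) := ⟨by norm_num⟩
  rw [IsCyclotomicExtension.Rat.discr_prime 11 K, IsCyclotomicExtension.Rat.finrank 11 K,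
    IsCyclotomicExtension.Rat.nrComplexPlaces_eq_totient_div_two 11 K,
    Nat.totient_prime (by norm_num : Nat.Prime 11)]
  apply Nat.lt_succ_iff.1
  rw [Nat.floor_lt (by positivity)]
  have h1 : (4 / π) ^ ((11 - 1) / 2) < (4 / 3.1415 : ℝ) ^ ((11 - 1) / 2) := by
    gcongr
    exact pi_gt_d4
  have h2 : √|(((-1) ^ ((11 - 1) / 2) * ((11 : ℕ) : ℤ) ^ (11 - 2) : ℤ) : ℝ)| < 11 ^ 4 * 3.317 := by
    rw [Real.sqrt_lt' (by norm_num)]
    norm_num
  have h3 : (0 : ℝ) < ((11 - 1 : ℕ)! : ℝ) / ((11 - 1 : ℕ) : ℝ) ^ (11 - 1) := by positivity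
  calc (4 / π) ^ ((11 - 1) / 2) * (((11 - 1 : ℕ)! : ℝ) / ((11 - 1 : ℕ) : ℝ) ^ (11 - 1) *
        √|(((-1) ^ ((11 - 1) / 2) * ((11 : ℕ) : ℤ) ^ (11 - 2) : ℤ) : ℝ)|)
      < (4 / 3.1415 : ℝ) ^ ((11 - 1) / 2) * (((11 - 1 : ℕ)! : ℝ) / ((11 - 1 : ℕ) : ℝ) ^ (11 - 1) *
        (11 ^ 4 * 3.317)) := by
        apply mul_lt_mul h1 (le_of_lt (mul_lt_mul_of_pos_left h2 h3)) (by positivity) (by positivity)
    _ < ((58 + 1 : ℕ) : ℝ) := by
        simp only [Nat.factorial]
        norm_num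

theorem eleven_pid (K : Type) [Field K] [NumberField K] [IsCyclotomicExtension {11} ℚ K] :
    IsPrincipalIdealRing (𝓞 K) := by
  haveI : Fact (Nat.Prime 11) := ⟨by norm_num⟩
  haveI : IsGalois ℚ K := IsCyclotomicExtension.isGalois {11} ℚ K
  have hζ := IsCyclotomicExtension.zeta_spec 11 ℚ K
  have hz : hζ.toInteger ^ 11 = 1 := hζ.toInteger_isPrimitiveRoot.pow_eq_one
  have hs : ∑ i ∈ Finset.range 11, hζ.toInteger ^ i = 0 :=
    hζ.toInteger_isPrimitiveRoot.geom_sum_eq_zero (by norm_num)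
  apply RingOfIntegers.isPrincipalIdealRing_of_isPrincipal_of_lt_or_isPrincipal_of_mem_primesOver_of_mem_Icc
  have hB := minkowski11 K
  intro q hq hqp
  rw [Finset.mem_Icc] at hq
  have hq58 : q ≤ 58 := hq.2.trans hB
  haveI : Fact q.Prime := ⟨hqp⟩
  have hdiv : ∀ d ∈ Finset.Icc 2 7, d ∣ q → d = q := by
    intro d hd hdq
    rw [Finset.mem_Icc] at hd
    exact (hqp.eq_one_or_self_of_dvd d hdq).resolve_left (by omega)
  have one_order : ∀ n : ℕ, n % 11 = 1 → n ^ orderOf (n : ZMod 11) = n := by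
    intro n hn
    have : (n : ZMod 11) = 1 := by
      have h1 : (n : ZMod 11) = ((1 : ℕ) : ZMod 11) := by
        rw [ZMod.natCast_eq_natCast_iff']
        exact hn
      simpa using h1
    rw [this, orderOf_one, pow_one]
  by_cases hq11 : q = 11
  · subst hq11
    refine ⟨span {hζ.toInteger - 1}, ⟨IsCyclotomicExtension.Rat.isPrime_span_zeta_sub_one' 11 hζ, ?_⟩,
      Or.inr ⟨_, rfl⟩⟩
    have hK' : IsCyclotomicExtension {11 ^ (0 + 1)} ℚ K := by simp only [zero_add, pow_one]; infer_instance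
    have hζ' : IsPrimitiveRoot (IsCyclotomicExtension.zeta 11 ℚ K) (11 ^ (0 + 1)) := by simpa using hζ
    exact IsCyclotomicExtension.Rat.liesOver_span_zeta_sub_one 11 0 hζ'
  rcases check11 q (Finset.mem_Icc.2 ⟨hq.1, hq58⟩) hdiv with rfl | rfl | rfl | hchk
  · exact absurd hqp (by norm_num)
  · exact absurd rfl hq11
  · obtain ⟨P, hP, hP'⟩ := exists_principal_primesOver (p := 11) K (q := 23) (by norm_num)
      (ev hζ.toInteger [1, 1, 0, 1]) (by
        rw [natAbs_norm_eq K hζ _ 23 (prod_ev_eq hz hs _ 23 5366 (by decide +kernel)),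
          one_order 23 (by norm_num)]
        norm_num)
    exact ⟨P, hP, Or.inr hP'⟩
  · -- generic `q`
    obtain ⟨P, hP, hP'⟩ := exists_primesOver_lt (p := 11) K (q := q) (B := 58) hq11 (by
      intro i hi hle
      refine hchk i (Finset.mem_Icc.2 ⟨hi, ?_⟩) hle
      by_contra hcon
      have h9 : 6 ≤ i := by omega
      have h1 : 2 ^ 6 ≤ q ^ i :=
        (Nat.pow_le_pow_right (by norm_num) h9).trans (Nat.pow_le_pow_left hqp.two_le i)
      omega)
    exact ⟨P, hP, Or.inl (lt_of_le_of_lt hB hP')⟩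

end Fermat.Agent.Kummer
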