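/-
Kummer project, module A: `ℤ[ζ_13]` is a PID.
Minkowski bound `306.5`; the primes `q ≤ 306` having a prime divisor of norm `≤ 306` are
`q = 13` (ramified, `(ζ - 1)`), `q = 3` (norm `27`) and `q = 53, 79, 131, 157` (split); explicit generators.
-/
import Mathlib
import Fermat.Agent.Kummer.PIDTools

set_option autoImplicit false
set_option linter.style.haveILetI false

open NumberField Ideal Real Nat

namespace Fermat.Agent.Kummer

lemma check13 : ∀ q ∈ Finset.Icc 1 306, (∀ d ∈ Finset.Icc 2 17, d ∣ q → d = q) →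
    q = 1 ∨ q = 3 ∨ q = 13 ∨ q = 53 ∨ q = 79 ∨ q = 131 ∨ q = 157 ∨
      ∀ i ∈ Finset.Icc 1 8, q ^ i ≤ 306 → q ^ i % 13 ≠ 1 := by
  decide +kernel

lemma order3_13 : orderOf ((3 : ℕ) : ZMod 13) = 3 := by
  haveI : Fact (Nat.Prime 3) := ⟨by norm_num⟩
  exact orderOf_eq_prime (by decide) (by decide)

lemma minkowski13 (K : Type) [Field K] [NumberField K] [IsCyclotomicExtension {13} ℚ K] :
    ⌊(4 / π) ^ InfinitePlace.nrComplexPlaces K *
      ((Module.finrank ℚ K)! / (Module.finrank ℚ K) ^ (Module.finrank ℚ K) * √|discr K|)⌋₊ ≤ 306 := by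
  haveI : Fact (Nat.Prime 13) := ⟨by norm_num⟩
  rw [IsCyclotomicExtension.Rat.discr_prime 13 K, IsCyclotomicExtension.Rat.finrank 13 K,
    IsCyclotomicExtension.Rat.nrComplexPlaces_eq_totient_div_two 13 K,
    Nat.totient_prime (by norm_num : Nat.Prime 13)]
  apply Nat.lt_succ_iff.1
  rw [Nat.floor_lt (by positivity)]
  have h1 : (4 / π) ^ ((13 - 1) / 2) < (4 / 3.1415 : ℝ) ^ ((13 - 1) / 2) := by
    gcongr
    exact pi_gt_d4
  have h2 : √|(((-1) ^ ((13 - 1) / 2) * ((13 : ℕ) : ℤ) ^ (13 - 2) : ℤ) : ℝ)| < 13 ^ 5 * 3.606 := by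
    rw [Real.sqrt_lt' (by norm_num)]
    norm_num
  have h3 : (0 : ℝ) < ((13 - 1 : ℕ)! : ℝ) / ((13 - 1 : ℕ) : ℝ) ^ (13 - 1) := by positivity
  calc (4 / π) ^ ((13 - 1) / 2) * (((13 - 1 : ℕ)! : ℝ) / ((13 - 1 : ℕ) : ℝ) ^ (13 - 1) *
        √|(((-1) ^ ((13 - 1) / 2) * ((13 : ℕ) : ℤ) ^ (13 - 2) : ℤ) : ℝ)|)
      < (4 / 3.1415 : ℝ) ^ ((13 - 1) / 2) * (((13 - 1 : ℕ)! : ℝ) / ((13 - 1 : ℕ) : ℝ) ^ (13 - 1) *
        (13 ^ 5 * 3.606)) := by
        apply mul_lt_mul h1 (le_of_lt (mul_lt_mul_of_pos_left h2 h3)) (by positivity) (by positivity)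
    _ < ((306 + 1 : ℕ) : ℝ) := by
        simp only [Nat.factorial]
        norm_num

theorem thirteen_pid (K : Type) [Field K] [NumberField K] [IsCyclotomicExtension {13} ℚ K] :
    IsPrincipalIdealRing (𝓞 K) := by
  haveI : Fact (Nat.Prime 13) := ⟨by norm_num⟩
  haveI : IsGalois ℚ K := IsCyclotomicExtension.isGalois {13} ℚ K
  have hζ := IsCyclotomicExtension.zeta_spec 13 ℚ K
  have hz : hζ.toInteger ^ 13 = 1 := hζ.toInteger_isPrimitiveRoot.pow_eq_one
  have hs : ∑ i ∈ Finset.range 13, hζ.toInteger ^ i = 0 :=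
    hζ.toInteger_isPrimitiveRoot.geom_sum_eq_zero (by norm_num)
  apply RingOfIntegers.isPrincipalIdealRing_of_isPrincipal_of_lt_or_isPrincipal_of_mem_primesOver_of_mem_Icc
  have hB := minkowski13 K
  intro q hq hqp
  rw [Finset.mem_Icc] at hq
  have hq306 : q ≤ 306 := hq.2.trans hB
  haveI : Fact q.Prime := ⟨hqp⟩
  have hdiv : ∀ d ∈ Finset.Icc 2 17, d ∣ q → d = q := by
    intro d hd hdq
    rw [Finset.mem_Icc] at hd
    exact (hqp.eq_one_or_self_of_dvd d hdq).resolve_left (by omega)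
  have one_order : ∀ n : ℕ, n % 13 = 1 → n ^ orderOf (n : ZMod 13) = n := by
    intro n hn
    have : (n : ZMod 13) = 1 := by
      have h1 : (n : ZMod 13) = ((1 : ℕ) : ZMod 13) := by
        rw [ZMod.natCast_eq_natCast_iff']
        exact hn
      simpa using h1
    rw [this, orderOf_one, pow_one]
  by_cases hq13 : q = 13
  · subst hq13
    refine ⟨span {hζ.toInteger - 1}, ⟨IsCyclotomicExtension.Rat.isPrime_span_zeta_sub_one' 13 hζ, ?_⟩,
      Or.inr ⟨_, rfl⟩⟩
    have hK' : IsCyclotomicExtension {13 ^ (0 + 1)} ℚ K := by simp only [zero_add, pow_one]; infer_instance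
    have hζ' : IsPrimitiveRoot (IsCyclotomicExtension.zeta 13 ℚ K) (13 ^ (0 + 1)) := by simpa using hζ
    exact IsCyclotomicExtension.Rat.liesOver_span_zeta_sub_one 13 0 hζ'
  rcases check13 q (Finset.mem_Icc.2 ⟨hq.1, hq306⟩) hdiv with
    rfl | rfl | rfl | rfl | rfl | rfl | rfl | hchk
  · exact absurd hqp (by norm_num)
  · -- q = 3
    obtain ⟨P, hP, hP'⟩ := exists_principal_primesOver (p := 13) K (q := 3) (by norm_num)
      (ev hζ.toInteger [1, 1, 0, -1]) (by
        rw [natAbs_norm_eq K hζ _ 27 (prod_ev_eq hz hs _ 27 (-2) (by decide +kernel))]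
        rw [order3_13]
        norm_num)
    exact ⟨P, hP, Or.inr hP'⟩
  · exact absurd rfl hq13
  · obtain ⟨P, hP, hP'⟩ := exists_principal_primesOver (p := 13) K (q := 53) (by norm_num)
      (ev hζ.toInteger [1, 1, 0, 1]) (by
        rw [natAbs_norm_eq K hζ _ 53 (prod_ev_eq hz hs _ 53 40876 (by decide +kernel)),
          one_order 53 (by norm_num)]
        norm_num)
    exact ⟨P, hP, Or.inr hP'⟩
  · obtain ⟨P, hP, hP'⟩ := exists_principal_primesOver (p := 13) K (q := 79) (by norm_num)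
      (ev hζ.toInteger [1, 1, 0, 0, -1]) (by
        rw [natAbs_norm_eq K hζ _ 79 (prod_ev_eq hz hs _ 79 (-6) (by decide +kernel)),
          one_order 79 (by norm_num)]
        norm_num)
    exact ⟨P, hP, Or.inr hP'⟩
  · obtain ⟨P, hP, hP'⟩ := exists_principal_primesOver (p := 13) K (q := 131) (by norm_num)
      (ev hζ.toInteger [1, -1, 0, -1]) (by
        rw [natAbs_norm_eq K hζ _ 131 (prod_ev_eq hz hs _ 131 (-10) (by decide +kernel)),
          one_order 131 (by norm_num)]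
        norm_num)
    exact ⟨P, hP, Or.inr hP'⟩
  · obtain ⟨P, hP, hP'⟩ := exists_principal_primesOver (p := 13) K (q := 157) (by norm_num)
      (ev hζ.toInteger [1, -1, 1, 0, 1]) (by
        rw [natAbs_norm_eq K hζ _ 157 (prod_ev_eq hz hs _ 157 303 (by decide +kernel)),
          one_order 157 (by norm_num)]
        norm_num)
    exact ⟨P, hP, Or.inr hP'⟩
  · -- generic `q`
    obtain ⟨P, hP, hP'⟩ := exists_primesOver_lt (p := 13) K (q := q) (B := 306) hq13 (by
      intro i hi hle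
      refine hchk i (Finset.mem_Icc.2 ⟨hi, ?_⟩) hle
      by_contra hcon
      have h9 : 9 ≤ i := by omega
      have h1 : 2 ^ 9 ≤ q ^ i :=
        (Nat.pow_le_pow_right (by norm_num) h9).trans (Nat.pow_le_pow_left hqp.two_le i)
      omega)
    exact ⟨P, hP, Or.inl (lt_of_le_of_lt hB hP')⟩

end Fermat.Agent.Kummer
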