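/-
Kummer project, module A: `ℤ[ζ_7]` is a PID.
Minkowski bound `4.2`; the primes `q = 2, 3` are inert enough (`2^3`, `3^6 > 4`).
-/
import Mathlib
import Fermat.Agent.Kummer.PIDTools

set_option autoImplicit false
set_option linter.style.haveILetI false

open NumberField Ideal Real Nat

namespace Fermat.Agent.Kummer

lemma check7 : ∀ q ∈ Finset.Icc 1 4, (∀ d ∈ Finset.Icc 2 2, d ∣ q → d = q) →
    q = 1 ∨ ∀ i ∈ Finset.Icc 1 2, q ^ i ≤ 4 → q ^ i % 7 ≠ 1 := by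
  decide +kernel

lemma minkowski7 (K : Type) [Field K] [NumberField K] [IsCyclotomicExtension {7} ℚ K] :
    ⌊(4 / π) ^ InfinitePlace.nrComplexPlaces K *
      ((Module.finrank ℚ K)! / (Module.finrank ℚ K) ^ (Module.finrank ℚ K) * √|discr K|)⌋₊ ≤ 4 := by
  haveI : Fact (Nat.Prime 7) := ⟨by norm_num⟩
  rw [IsCyclotomicExtension.Rat.discr_prime 7 K, IsCyclotomicExtension.Rat.finrank 7 K,
    IsCyclotomicExtension.Rat.nrComplexPlaces_eq_totient_div_two 7 K,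
    Nat.totient_prime (by norm_num : Nat.Prime 7)]
  apply Nat.lt_succ_iff.1
  rw [Nat.floor_lt (by positivity)]
  have h1 : (4 / π) ^ ((7 - 1) / 2) < (4 / 3.1415 : ℝ) ^ ((7 - 1) / 2) := by
    gcongr
    exact pi_gt_d4
  have h2 : √|(((-1) ^ ((7 - 1) / 2) * ((7 : ℕ) : ℤ) ^ (7 - 2) : ℤ) : ℝ)| < 7 ^ 2 * 2.7 := by
    rw [Real.sqrt_lt' (by norm_num)]
    norm_num
  have h3 : (0 : ℝ) < ((7 - 1 : ℕ)! : ℝ) / ((7 - 1 : ℕ) : ℝ) ^ (7 - 1) := by positivity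
  calc (4 / π) ^ ((7 - 1) / 2) * (((7 - 1 : ℕ)! : ℝ) / ((7 - 1 : ℕ) : ℝ) ^ (7 - 1) *
        √|(((-1) ^ ((7 - 1) / 2) * ((7 : ℕ) : ℤ) ^ (7 - 2) : ℤ) : ℝ)|)
      < (4 / 3.1415 : ℝ) ^ ((7 - 1) / 2) * (((7 - 1 : ℕ)! : ℝ) / ((7 - 1 : ℕ) : ℝ) ^ (7 - 1) *
        (7 ^ 2 * 2.7)) := by
        apply mul_lt_mul h1 (le_of_lt (mul_lt_mul_of_pos_left h2 h3)) (by positivity) (by positivity)
    _ < ((4 + 1 : ℕ) : ℝ) := by
        simp only [Nat.factorial]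
        norm_num

theorem seven_pid (K : Type) [Field K] [NumberField K] [IsCyclotomicExtension {7} ℚ K] :
    IsPrincipalIdealRing (𝓞 K) := by
  haveI : Fact (Nat.Prime 7) := ⟨by norm_num⟩
  haveI : IsGalois ℚ K := IsCyclotomicExtension.isGalois {7} ℚ K
  apply RingOfIntegers.isPrincipalIdealRing_of_isPrincipal_of_lt_or_isPrincipal_of_mem_primesOver_of_mem_Icc
  have hB := minkowski7 K
  intro q hq hqp
  rw [Finset.mem_Icc] at hq
  have hq4 : q ≤ 4 := hq.2.trans hB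
  haveI : Fact q.Prime := ⟨hqp⟩
  have hdiv : ∀ d ∈ Finset.Icc 2 2, d ∣ q → d = q := by
    intro d hd hdq
    rw [Finset.mem_Icc] at hd
    exact (hqp.eq_one_or_self_of_dvd d hdq).resolve_left (by omega)
  rcases check7 q (Finset.mem_Icc.2 ⟨hq.1, hq4⟩) hdiv with rfl | hchk
  · exact absurd hqp (by norm_num)
  · obtain ⟨P, hP, hP'⟩ := exists_primesOver_lt (p := 7) K (q := q) (B := 4) (by omega) (by
      intro i hi hle
      refine hchk i (Finset.mem_Icc.2 ⟨hi, ?_⟩) hle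
      by_contra hcon
      have h9 : 3 ≤ i := by omega
      have h1 : 2 ^ 3 ≤ q ^ i :=
        (Nat.pow_le_pow_right (by norm_num) h9).trans (Nat.pow_le_pow_left hqp.two_le i)
      omega)
    exact ⟨P, hP, Or.inl (lt_of_le_of_lt hB hP')⟩

end Fermat.Agent.Kummer
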